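import Mathlib
import Fermat.Prelude.Def_JacJ1Iface
import Fermat.Prelude.Def_GoodReductionJacobian_RelativeGroupLawKernel

/-!
# Points of an abelian variety with values in algebras

An abelian variety over a field `K` seen through its functor of points on `K`-algebras: the
valuative criterion gives a bijection between points over a valuation subalgebra and over its
field, and points over a domain are determined over any larger ring.
-/

set_option autoImplicit false
set_option linter.style.haveILetI false

noncomputable section

universe u

open CategoryTheory CategoryTheory.Limits AlgebraicGeometry NeronModelInfra GoodReductionJacobian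

namespace FermatAgent.AbVar

/-- An abelian variety of dimension `dim` over `K`. -/
structure AV (K : Type u) [Field K] : Type (u + 1) where
  /-- The underlying scheme. -/
  carrier : Scheme.{u}
  /-- The structure map. -/
  str : carrier ⟶ Spec (CommRingCat.of K)
  /-- The group law on points. -/
  law : RelativeGroupLaw K str
  comm : law.IsCommutative
  bundle : AbelianSchemePropertyBundle K str
  /-- The relative dimension. -/
  dim : ℕ
  smoothDim : SmoothOfRelativeDimension dim str

variable {K : Type u} [Field K] (G : AV K)

namespace AV

instance : IsProper G.str := G.bundle.proper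

/-- The structure morphism of the spectrum of a `K`-algebra. -/
def base (K : Type u) [Field K] (R : Type u) [CommRing R] [Algebra K R] :
    Spec (CommRingCat.of R) ⟶ Spec (CommRingCat.of K) :=
  Spec.map (CommRingCat.ofHom (algebraMap K R))

/-- The points with values in a `K`-algebra. -/
def Pt (R : Type u) [CommRing R] [Algebra K R] : Type u :=
  SchemeHomOver (base K R) G.str

variable {R S T : Type u} [CommRing R] [Algebra K R] [CommRing S] [Algebra K S] [CommRing T]
  [Algebra K T]

instance : Add (G.Pt R) := ⟨fun x y => G.law.mul (base K R) x y⟩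

instance : Zero (G.Pt R) := ⟨G.law.one (base K R)⟩

instance : Neg (G.Pt R) := ⟨fun x => G.law.inv (base K R) x⟩

instance : AddCommGroup (G.Pt R) where
  add_assoc := G.law.mul_assoc (base K R)
  zero_add := G.law.one_mul (base K R)
  add_zero := G.law.mul_one (base K R)
  neg_add_cancel := G.law.inv_mul_cancel (base K R)
  add_comm := G.comm (base K R)
  nsmul := nsmulRec
  zsmul := zsmulRec

variable {G}

theorem pt_ext {x y : G.Pt R} (h : x.1 = y.1) : x = y := Subtype.ext h

theorem nsmul_eq (n : ℕ) (x : G.Pt R) : n • x = G.law.nsmul (base K R) n x := by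
  induction n with
  | zero => rw [zero_nsmul]; rfl
  | succ n ih => rw [succ_nsmul, ih]; rfl

theorem base_comp (h : R →ₐ[K] S) :
    Spec.map (CommRingCat.ofHom h.toRingHom) ≫ base K R = base K S := by
  rw [base, base, ← Spec.map_comp, ← CommRingCat.ofHom_comp]
  congr 2
  exact h.comp_algebraMap

/-- Functoriality of points. -/
def map (h : R →ₐ[K] S) : G.Pt R →+ G.Pt S :=
  AddMonoidHom.mk' (fun x => schemeHomOverComp (Spec.map (CommRingCat.ofHom h.toRingHom))
      (base_comp h) x)
    fun x y => G.law.mul_natural (base K R) (base K S) _ (base_comp h) x y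

theorem map_coe (h : R →ₐ[K] S) (x : G.Pt R) :
    (map h x).1 = Spec.map (CommRingCat.ofHom h.toRingHom) ≫ x.1 := rfl

@[simp]
theorem map_id (x : G.Pt R) : map (AlgHom.id K R) x = x :=
  pt_ext (by rw [map_coe]; simp)

theorem map_map (h : R →ₐ[K] S) (h' : S →ₐ[K] T) (x : G.Pt R) :
    map h' (map h x) = map (h'.comp h) x :=
  pt_ext (by
    rw [map_coe, map_coe, map_coe, ← Category.assoc, ← Spec.map_comp, ← CommRingCat.ofHom_comp]
    rfl)

/-- A point over a reduced ring is determined over any larger ring. -/
theorem map_injective [IsReduced R] (h : R →ₐ[K] S) (hh : Function.Injective h) :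
    Function.Injective (map (G := G) h) := fun x y hxy => by
  haveI : AlgebraicGeometry.IsReduced (Spec (CommRingCat.of R)) := inferInstance
  haveI : IsDominant (Spec.map (CommRingCat.ofHom h.toRingHom)) := by
    refine ⟨(PrimeSpectrum.denseRange_comap_iff_ker_le_nilRadical _).mpr ?_⟩
    intro r hr
    rw [show r = 0 from hh (hr.trans (_root_.map_zero h).symm)]
    exact zero_mem _
  exact pt_ext (ext_of_isDominant_of_isSeparated G.str (x.2.trans y.2.symm)
    (Spec.map (CommRingCat.ofHom h.toRingHom)) (congrArg Subtype.val hxy))

/-- A subalgebra of a field is a valuation subalgebra if it contains `x` or `x⁻¹` for all `x`. -/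
def IsVal {F : Type u} [Field F] [Algebra K F] (V : Subalgebra K F) : Prop :=
  ∀ x : F, x ∈ V ∨ x⁻¹ ∈ V

variable {F : Type u} [Field F] [Algebra K F] {V : Subalgebra K F}

/-- The valuation subring of a valuation subalgebra. -/
def IsVal.toValuationSubring (hV : IsVal V) : ValuationSubring F where
  toSubring := V.toSubring
  mem_or_inv_mem' := hV

theorem IsVal.isLocalRing (hV : IsVal V) : IsLocalRing V :=
  (inferInstance : IsLocalRing hV.toValuationSubring)

/-- Points over a valuation subalgebra are points over the field (valuative criterion). -/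
theorem map_val_bijective (hV : IsVal V) : Function.Bijective (map (G := G) V.val) := by
  refine ⟨map_injective _ Subtype.coe_injective, fun P => ?_⟩
  haveI : ValuationRing V := (inferInstance : ValuationRing hV.toValuationSubring)
  haveI : IsFractionRing V F := (inferInstance : IsFractionRing hV.toValuationSubring F)
  have hsq : CommSq P.1 (Spec.map (CommRingCat.ofHom (algebraMap V F))) G.str (base K V) :=
    ⟨P.2.trans (base_comp V.val).symm⟩
  have hvc : ValuativeCriterion G.str := by
    have h : IsProper G.str := inferInstance
    rw [IsProper.eq_valuativeCriterion] at h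
    exact h.1.1.1
  obtain ⟨⟨l, hl₁, hl₂⟩⟩ := (hvc.existence ⟨V, F, P.1, base K V, hsq⟩).exists_lift
  exact ⟨⟨l, hl₂⟩, pt_ext hl₁⟩

/-- The point over a valuation subalgebra extending a point over the field. -/
def lift (hV : IsVal V) (P : G.Pt F) : G.Pt V :=
  Classical.choose ((map_val_bijective hV).2 P)

theorem map_lift (hV : IsVal V) (P : G.Pt F) : map V.val (lift hV P) = P :=
  Classical.choose_spec ((map_val_bijective hV).2 P)

theorem lift_eq (hV : IsVal V) {P : G.Pt F} {Q : G.Pt V} (h : map V.val Q = P) :
    lift hV P = Q :=
  (map_val_bijective hV).1 ((map_lift hV P).trans h.symm)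

theorem lift_add (hV : IsVal V) (P Q : G.Pt F) : lift hV (P + Q) = lift hV P + lift hV Q :=
  lift_eq hV (by rw [map_add, map_lift, map_lift])

variable (G)

/-- A line bundle seen through transition units: to a map `h : R → S` of local rings and an
`R`-point it gives the ratio of the trivialisations at the two centres. -/
structure LineBundle : Type (u + 1) where
  /-- The comparison of the trivialisations along a map of local rings. -/
  t : ∀ {R S : Type u} [CommRing R] [IsLocalRing R] [Algebra K R] [CommRing S] [IsLocalRing S]
    [Algebra K S], (R →ₐ[K] S) → G.Pt R → Sˣ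
  t_comp : ∀ {R S T : Type u} [CommRing R] [IsLocalRing R] [Algebra K R] [CommRing S]
    [IsLocalRing S] [Algebra K S] [CommRing T] [IsLocalRing T] [Algebra K T] (h : R →ₐ[K] S)
    (h' : S →ₐ[K] T) (P : G.Pt R),
    t (h'.comp h) P = Units.map (h'.toRingHom : S →* T) (t h P) * t h' (map h P)
  t_of_isLocalHom : ∀ {R S : Type u} [CommRing R] [IsLocalRing R] [Algebra K R] [CommRing S]
    [IsLocalRing S] [Algebra K S] (h : R →ₐ[K] S), IsLocalHom h.toRingHom → ∀ P, t h P = 1
  nice : ∀ {F : Type u} [Field F] [Algebra K F] (P : G.Pt F),
    ∃ s : Finset F, ∀ (R : Subalgebra K F) [IsLocalRing R], (∀ x ∈ s, x ∈ R) →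
      ∃ Q : G.Pt R, map R.val Q = P ∧ ∃ e : Rˣ, ((t R.val Q : Fˣ) : F) = ((e : R) : F)

namespace LineBundle

variable {G} (B : G.LineBundle) {R : Type u} [CommRing R] [IsLocalRing R] [Algebra K R]

/-- The trivialisation at the centre of a valuation subalgebra, compared with the generic one. -/
def val {F : Type u} [Field F] [Algebra K F] {V : Subalgebra K F} (hV : IsVal V) (P : G.Pt F) :
    Fˣ :=
  haveI := hV.isLocalRing
  B.t V.val (lift hV P)

end LineBundle

end AV

end FermatAgent.AbVar
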