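import Fermat.Agent.AbVar.Basic

/-!
# Torsion points of a relative group law and of the point functor

Both count the same points.
-/

set_option autoImplicit false

noncomputable section

universe u

open CategoryTheory AlgebraicGeometry NeronModelInfra GoodReductionJacobian

namespace FermatAgent.AbVar

namespace AV

variable {K : Type u} [Field K] (G : AV K)

theorem natCard_isTorsionPoint (n : ℕ) :
    Nat.card {x : SchemeHomOver (𝟙 (Spec (CommRingCat.of K))) G.str //
        G.law.IsTorsionPoint (𝟙 (Spec (CommRingCat.of K))) n x} =
      Nat.card {P : G.Pt K // n • P = 0} := by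
  have h : ∀ t, t = base K K →
      Nat.card {x : SchemeHomOver t G.str // G.law.IsTorsionPoint t n x} =
        Nat.card {P : G.Pt K // n • P = 0} := by
    rintro t rfl
    refine Nat.card_congr (Equiv.subtypeEquivRight fun x => ?_)
    show G.law.nsmul (base K K) n x = G.law.one (base K K) ↔ n • (id x : G.Pt K) = 0
    rw [nsmul_eq]
    rfl
  exact h _ (Spec.map_id _).symm

end AV

end FermatAgent.AbVar
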