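import Fermat.Agent.AbVar.Chart

/-!
# Local equations give line bundles

Local equations of a divisor give the transition units of a line bundle.
-/

set_option autoImplicit false
set_option linter.style.haveILetI false

noncomputable section

universe u

open CategoryTheory CategoryTheory.Limits AlgebraicGeometry

namespace FermatAgent.AbVar

namespace AV

variable {K : Type u} [Field K] (G : AV K) [IsIntegral G.carrier]

/-- Local equations of a divisor, one at every point: near each point they differ by units. -/
structure CartData : Type u where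
  /-- The local equation at a point. -/
  eqn : G.carrier → G.Rat
  eqn_ne : ∀ x, eqn x ≠ 0
  nhd : ∀ ξ, ∃ W : G.carrier.Opens, ξ ∈ W ∧
    ∀ y ∈ W, ∃ w : (G.Stalk y)ˣ, G.toRat y w = eqn ξ / eqn y

namespace CartData

variable {G} (D : CartData G)

theorem exists_trans {x y : G.carrier} (h : y ⤳ x) :
    ∃ w : (G.Stalk y)ˣ, G.toRat y w = D.eqn x / D.eqn y := by
  obtain ⟨W, hxW, hW⟩ := D.nhd x
  exact hW y (h.mem_open W.isOpen hxW)

/-- The transition unit along a specialisation. -/
def trans {x y : G.carrier} (h : y ⤳ x) : (G.Stalk y)ˣ := (D.exists_trans h).choose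

theorem toRat_trans {x y : G.carrier} (h : y ⤳ x) :
    G.toRat y (D.trans h : G.Stalk y) = D.eqn x / D.eqn y :=
  (D.exists_trans h).choose_spec

theorem regularAt_ratio {x y : G.carrier} (h : y ⤳ x) :
    G.RegularAt (D.eqn x / D.eqn y) y := ⟨_, D.toRat_trans h⟩

/-- The transition units of the line bundle. -/
def unit {R S : Type u} [CommRing R] [IsLocalRing R] [Algebra K R] [CommRing S] [IsLocalRing S]
    [Algebra K S] (h : R →ₐ[K] S) (P : G.Pt R) : Sˣ :=
  Units.map ((stalkHom (map h P)).toRingHom : _ →* S) (D.trans (centre_map_specializes h P))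

theorem coe_unit {R S : Type u} [CommRing R] [IsLocalRing R] [Algebra K R] [CommRing S]
    [IsLocalRing S] [Algebra K S] (h : R →ₐ[K] S) (P : G.Pt R) :
    (D.unit h P : S) =
      valueOf (map h P) (D.eqn (centre P) / D.eqn (centre (map h P))) := by
  rw [← D.toRat_trans (centre_map_specializes h P), valueOf_toRat]
  rfl

/-- The line bundle of a divisor. -/
def lineBundle : G.LineBundle where
  t h P := D.unit h P
  t_comp {R S T} _ _ _ _ _ _ _ _ _ h h' P := by
    refine Units.ext ?_
    have h₁ := centre_map_specializes h P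
    have h₂ := centre_map_specializes h' (map h P)
    rw [Units.val_mul]
    show ((D.unit (h'.comp h) P : Tˣ) : T) = h' (D.unit h P : S) * (D.unit h' (map h P) : T)
    rw [D.coe_unit, D.coe_unit, D.coe_unit,
      ← valueOf_map h' (map h P) (D.regularAt_ratio h₁),
      ← valueOf_mul (map h' (map h P)) ((D.regularAt_ratio h₁).mono _ h₂) (D.regularAt_ratio h₂),
      map_map]
    congr 1
    rw [← map_map]
    field_simp [D.eqn_ne]
  t_of_isLocalHom {R S} _ _ _ _ _ _ h hh P := by
    refine Units.ext ?_
    haveI := hh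
    rw [D.coe_unit, centre_map_of_isLocalHom, div_self (D.eqn_ne _), valueOf_one, Units.val_one]
  nice {F} _ _ P := by
    obtain ⟨W, hW₀, hW⟩ := D.nhd (centre P)
    obtain ⟨_, ⟨U, hU, rfl⟩, hPU, hUW⟩ :=
      G.carrier.isBasis_affineOpens.exists_subset_of_mem_open hW₀ W.isOpen
    obtain ⟨s, hs⟩ := exists_extension_in_chart hU P hPU
    refine ⟨s, fun R _ hR => ?_⟩
    obtain ⟨Q, hQ, hQU⟩ := hs R hR
    obtain ⟨w, hw⟩ := hW _ (hUW hQU)
    let e : Rˣ := (Units.map ((stalkHom Q).toRingHom : _ →* R) w)⁻¹
    refine ⟨Q, hQ, e, ?_⟩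
    have hspec := centre_map_specializes R.val Q
    have hreg : G.RegularAt (D.eqn (centre P) / D.eqn (centre Q)) (centre Q) := ⟨_, hw⟩
    have key : R.val (valueOf Q (D.eqn (centre P) / D.eqn (centre Q))) *
        (D.unit R.val Q : F) = 1 := by
      rw [D.coe_unit, ← valueOf_map R.val Q hreg,
        ← valueOf_mul _ (hreg.mono _ hspec) (D.regularAt_ratio hspec), hQ,
        div_mul_div_cancel₀ (D.eqn_ne _), div_self (D.eqn_ne _), valueOf_one]
    rw [← hw, valueOf_toRat] at key
    have hu : ((stalkHom Q (w : G.Stalk (centre Q)) : R) : F) * ((e : R) : F) = 1 := by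
      rw [← Subalgebra.coe_mul]
      exact congrArg Subtype.val (Units.mul_inv (Units.map ((stalkHom Q).toRingHom : _ →* R) w))
    exact mul_left_cancel₀ (left_ne_zero_of_mul_eq_one hu) (key.trans hu.symm)

theorem coe_val {F : Type u} [Field F] [Algebra K F] {V : Subalgebra K F} (hV : IsVal V)
    (P : G.Pt F) :
    haveI := hV.isLocalRing
    (D.lineBundle.val hV P : F) =
      valueOf P (D.eqn (centre (lift hV P)) / D.eqn (centre P)) := by
  haveI := hV.isLocalRing
  show (D.unit V.val (lift hV P) : F) = _
  rw [D.coe_unit, map_lift]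

end CartData

end AV

end FermatAgent.AbVar
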