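import Fermat.Agent.AbVar.Rational

/-!
# Affine charts

Points whose coordinates in an affine chart lie in a subring extend to that subring.
-/

set_option autoImplicit false
set_option linter.style.haveILetI false

noncomputable section

universe u

open CategoryTheory CategoryTheory.Limits AlgebraicGeometry

namespace FermatAgent.AbVar

namespace AV

variable {K : Type u} [Field K] {G : AV K} {U : G.carrier.Opens} (hU : IsAffineOpen U)

/-- The structure map of an affine chart. -/
def chartStr : K →+* Γ(G.carrier, U) := (Spec.preimage (hU.fromSpec ≫ G.str)).hom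

theorem spec_chartStr :
    Spec.map (CommRingCat.ofHom (chartStr hU)) = hU.fromSpec ≫ G.str := Spec.map_preimage _

/-- The algebra of an affine chart. -/
@[instance_reducible]
def chartAlgebra : Algebra K Γ(G.carrier, U) := (chartStr hU).toAlgebra

theorem finiteType_chartStr : (chartStr hU).FiniteType := by
  haveI : LocallyOfFiniteType (Spec.map (CommRingCat.ofHom (chartStr hU))) := by
    rw [spec_chartStr]; infer_instance
  exact (HasRingHomProperty.Spec_iff (P := @LocallyOfFiniteType)).mp this

theorem germ_chartStr {x : G.carrier} (hx : x ∈ U) (c : K) :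
    (G.carrier.presheaf.germ U x hx).hom (chartStr hU c) = algebraMap K (G.Stalk x) c := by
  have e : Spec.map (CommRingCat.ofHom
      ((G.carrier.presheaf.germ U x hx).hom.comp (chartStr hU))) = base K (G.Stalk x) := by
    rw [CommRingCat.ofHom_comp, Spec.map_comp, spec_chartStr, G.base_stalk]
    refine (Category.assoc _ _ _).symm.trans (congrArg (· ≫ G.str) ?_)
    exact hU.fromSpecStalk_eq_fromSpecStalk hx
  exact RingHom.congr_fun (congrArg CommRingCat.Hom.hom (Spec.map_injective e)) c

variable {R : Type u} [CommRing R] [Algebra K R]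

/-- The point defined by an algebra map on an affine chart. -/
def chartPoint (φ : Γ(G.carrier, U) →+* R) (hφ : φ.comp (chartStr hU) = algebraMap K R) :
    G.Pt R :=
  ⟨Spec.map (CommRingCat.ofHom φ) ≫ hU.fromSpec, by
    rw [Category.assoc, ← spec_chartStr, ← Spec.map_comp, ← CommRingCat.ofHom_comp, hφ]
    rfl⟩

theorem map_chartPoint {S : Type u} [CommRing S] [Algebra K S] (h : R →ₐ[K] S)
    (φ : Γ(G.carrier, U) →+* R) (hφ : φ.comp (chartStr hU) = algebraMap K R) :
    map h (chartPoint hU φ hφ) = chartPoint hU (h.toRingHom.comp φ)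
      (by rw [RingHom.comp_assoc, hφ]; exact h.comp_algebraMap) :=
  pt_ext (by
    rw [map_coe]
    show _ ≫ _ ≫ _ = _ ≫ _
    rw [CommRingCat.ofHom_comp, Spec.map_comp, Category.assoc])

theorem centre_chartPoint_mem [IsLocalRing R] (φ : Γ(G.carrier, U) →+* R)
    (hφ : φ.comp (chartStr hU) = algebraMap K R) :
    centre (chartPoint hU φ hφ) ∈ U := by
  rw [← SetLike.mem_coe, ← hU.range_fromSpec]
  exact ⟨_, rfl⟩

/-- The coordinates of a point with centre in the chart. -/
def chartCoord [IsLocalRing R] (P : G.Pt R) (h : centre P ∈ U) : Γ(G.carrier, U) →+* R :=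
  (stalkHom P).toRingHom.comp (G.carrier.presheaf.germ U (centre P) h).hom

theorem chartCoord_comp [IsLocalRing R] (P : G.Pt R) (h : centre P ∈ U) :
    (chartCoord P h).comp (chartStr hU) = algebraMap K R := by
  refine RingHom.ext fun c => ?_
  show stalkHom P ((G.carrier.presheaf.germ U _ h).hom (chartStr hU c)) = _
  rw [germ_chartStr hU h]
  exact (stalkHom P).commutes c

theorem chartPoint_chartCoord [IsLocalRing R] (P : G.Pt R) (h : centre P ∈ U) :
    chartPoint hU (chartCoord P h) (chartCoord_comp hU P h) = P :=
  pt_ext (by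
    show Spec.map _ ≫ _ = _
    rw [chartCoord, CommRingCat.ofHom_comp, Spec.map_comp, Category.assoc]
    refine Eq.trans (congrArg (_ ≫ ·) (hU.fromSpecStalk_eq_fromSpecStalk h)) ?_
    exact spec_stalkRingHom P)

include hU in
/-- A point extends, with centre in the chart, over any local subalgebra containing the images
of finitely many functions. -/
theorem exists_extension_in_chart {F : Type u} [Field F] [Algebra K F] (P : G.Pt F)
    (h : centre P ∈ U) :
    ∃ s : Finset F, ∀ (R : Subalgebra K F) [IsLocalRing R], (∀ x ∈ s, x ∈ R) →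
      ∃ Q : G.Pt R, map R.val Q = P ∧ centre Q ∈ U := by
  classical
  letI := chartAlgebra hU
  haveI : Algebra.FiniteType K Γ(G.carrier, U) := finiteType_chartStr hU
  obtain ⟨s, hs⟩ := ‹Algebra.FiniteType K Γ(G.carrier, U)›.out
  let ψ : Γ(G.carrier, U) →ₐ[K] F :=
    { chartCoord P h with commutes' := fun c => RingHom.congr_fun (chartCoord_comp hU P h) c }
  refine ⟨s.image ψ, fun R _ hR => ?_⟩
  have hle : ∀ z, ψ z ∈ R := by
    intro z
    have : (⊤ : Subalgebra K Γ(G.carrier, U)) ≤ R.comap ψ := by
      rw [← hs, Algebra.adjoin_le_iff]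
      exact fun z hz => hR _ (Finset.mem_image_of_mem ψ hz)
    exact this trivial
  let φ : Γ(G.carrier, U) →ₐ[K] R := ψ.codRestrict R hle
  have hφ : φ.toRingHom.comp (chartStr hU) = algebraMap K R := RingHom.ext fun c => φ.commutes c
  refine ⟨chartPoint hU φ.toRingHom hφ, ?_, centre_chartPoint_mem hU _ hφ⟩
  rw [map_chartPoint]
  exact (pt_ext rfl).trans (chartPoint_chartCoord hU P h)

end AV

end FermatAgent.AbVar
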