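import Fermat.Agent.AbVar.Generisation
import Fermat.Agent.AbVar.Isogeny.Main

/-!
# Homomorphisms out of local rings and points

A homomorphism out of a local ring of the variety is determined by the point it defines. This
gives the maps of local rings induced by inversion and by multiplication by `n`.
-/

set_option autoImplicit false
set_option linter.unusedSectionVars false

noncomputable section

universe u

open CategoryTheory CategoryTheory.Limits AlgebraicGeometry NeronModelInfra GoodReductionJacobian

namespace FermatAgent.AbVar

namespace AV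

variable {K : Type u} [Field K] {G : AV K} {R S : Type u} [CommRing R] [IsLocalRing R]
  [Algebra K R] [CommRing S] [IsLocalRing S] [Algebra K S]

theorem centre_map_stalkPt_specializes {x : G.carrier} (φ : G.Stalk x →ₐ[K] R) :
    centre (map φ (G.stalkPt x)) ⤳ x :=
  (centre_map_specializes φ _).trans (specializes_of_eq (centre_stalkPt x))

/-- The homomorphism out of the local ring at a specialisation of the centre of a point. -/
def homAt (P : G.Pt R) {x : G.carrier} (h : centre P ⤳ x) : G.Stalk x →ₐ[K] R :=
  (stalkHom P).comp (G.spHom h)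

theorem map_homAt (P : G.Pt R) {x : G.carrier} (h : centre P ⤳ x) :
    map (homAt P h) (G.stalkPt x) = P := by
  rw [homAt, ← map_map, map_spHom, map_stalkHom]

theorem homAt_congr {P Q : G.Pt R} (e : P = Q) {x : G.carrier} (h : centre P ⤳ x)
    (h' : centre Q ⤳ x) : homAt P h = homAt Q h' := by
  subst e; rfl

theorem homAt_map_stalkPt {x : G.carrier} (φ : G.Stalk x →ₐ[K] R) :
    homAt (map φ (G.stalkPt x)) (centre_map_stalkPt_specializes φ) = φ := by
  refine AlgHom.ext fun z => ?_
  rw [homAt, AlgHom.comp_apply,
    ← G.spHom_spHom (specializes_of_eq (centre_stalkPt x)) (centre_map_specializes φ _)]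
  exact (stalkHom_map φ (G.stalkPt x) _).trans (congrArg φ (stalkHom_stalkPt x z))

/-- A homomorphism out of a local ring is determined by the point it defines. -/
theorem algHom_ext_stalkPt {x : G.carrier} {φ ψ : G.Stalk x →ₐ[K] R}
    (h : map φ (G.stalkPt x) = map ψ (G.stalkPt x)) : φ = ψ := by
  rw [← homAt_map_stalkPt φ, homAt_congr h _ (centre_map_stalkPt_specializes ψ),
    homAt_map_stalkPt ψ]

theorem isLocalHom_homAt (P : G.Pt R) {x : G.carrier} (h : centre P = x) :
    IsLocalHom (homAt P (specializes_of_eq h)).toRingHom := by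
  subst h
  rw [show homAt P (specializes_of_eq rfl) = stalkHom P from
    AlgHom.ext fun z => congrArg (stalkHom P) (G.spHom_rfl _ z)]
  exact isLocalHom_stalkHom P

theorem isLocalHom_ofId {k : Type u} [Field k] [Algebra K k] :
    IsLocalHom (Algebra.ofId K k).toRingHom :=
  ⟨fun a ha => isUnit_iff_ne_zero.mpr fun h => ha.ne_zero (by simp [h])⟩

theorem centre_map_ofId {k : Type u} [Field k] [Algebra K k] (P : G.Pt K) :
    centre (map (Algebra.ofId K k) P) = centre P :=
  haveI : IsLocalHom (Algebra.ofId K k).toRingHom := isLocalHom_ofId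
  centre_map_of_isLocalHom _ P

theorem centre_nsmul (n : ℕ) (P : G.Pt R) : centre (n • P) = G.mulN n (centre P) := by
  show (n • P).1 _ = _
  rw [coe_nsmul]
  rfl

variable (G) in
/-- Inversion on the variety. -/
def invMor : G.carrier ⟶ G.carrier :=
  (G.law.inv G.str RelativeGroupLaw.idPoint).1

theorem coe_neg (P : G.Pt R) : (-P).1 = P.1 ≫ G.invMor := by
  let y : G.Pt R := schemeHomOverComp P.1 P.2 (G.law.inv G.str RelativeGroupLaw.idPoint)
  have h : y + P = 0 := by
    have e := G.law.mul_natural G.str (base K R) P.1 P.2
      (G.law.inv G.str RelativeGroupLaw.idPoint) RelativeGroupLaw.idPoint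
    rw [G.law.inv_mul_cancel, G.law.one_natural,
      show schemeHomOverComp P.1 P.2 (RelativeGroupLaw.idPoint (f := G.str)) = P from
        pt_ext (Category.comp_id _)] at e
    exact e.symm
  rw [← show y = -P from eq_neg_of_add_eq_zero_left h]
  rfl

theorem centre_neg (P : G.Pt R) : centre (-P) = G.invMor (centre P) := by
  show (-P).1 _ = _
  rw [coe_neg]
  rfl

variable (G) in
theorem maximalIdeal_map_spHom {x y : G.carrier} (h : y = x) :
    (IsLocalRing.maximalIdeal (G.Stalk x)).map (G.spHom (specializes_of_eq h)).toRingHom =
      IsLocalRing.maximalIdeal (G.Stalk y) := by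
  subst h
  rw [show (G.spHom (specializes_of_eq rfl)).toRingHom = RingHom.id (G.Stalk y) from
    RingHom.ext fun z => G.spHom_rfl _ z]
  exact Ideal.map_id _

/-- Multiplication by an invertible `n` maps the maximal ideal at an image point onto a generating
set of the maximal ideal. -/
theorem maximalIdeal_map_homAt_nsmul {n : ℕ} (hn : (n : K) ≠ 0) {x o : G.carrier}
    (h : centre (n • G.stalkPt x) = o) :
    (IsLocalRing.maximalIdeal (G.Stalk o)).map
        (homAt (n • G.stalkPt x) (specializes_of_eq h)).toRingHom =
      IsLocalRing.maximalIdeal (G.Stalk x) := by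
  have hy : G.mulN n x = o := by
    rw [← h, centre_nsmul, centre_stalkPt]
  have hc : (Spec.preimage (G.carrier.fromSpecStalk (G.mulN n x) ≫ G.str)) ≫
      (G.mulN n).stalkMap x = Spec.preimage (G.carrier.fromSpecStalk x ≫ G.str) :=
    Spec.map_injective (by
      rw [Spec.map_comp, Spec.map_preimage, Spec.map_preimage, ← Category.assoc,
        Scheme.SpecMap_stalkMap_fromSpecStalk, Category.assoc, mulN_str])
  let ψ : G.Stalk (G.mulN n x) →ₐ[K] G.Stalk x :=
    { ((G.mulN n).stalkMap x).hom with
      commutes' := fun c => RingHom.congr_fun (congrArg CommRingCat.Hom.hom hc) c }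
  have hψ : map ψ (G.stalkPt (G.mulN n x)) = n • G.stalkPt x := pt_ext (by
    rw [map_coe, coe_nsmul]
    exact Scheme.SpecMap_stalkMap_fromSpecStalk _)
  have e : homAt (n • G.stalkPt x) (specializes_of_eq h) =
      ψ.comp (G.spHom (specializes_of_eq hy)) :=
    algHom_ext_stalkPt (by rw [map_homAt, ← map_map, map_spHom, hψ])
  rw [e]
  show Ideal.map (ψ.toRingHom.comp (G.spHom (specializes_of_eq hy)).toRingHom) _ = _
  rw [← Ideal.map_map, G.maximalIdeal_map_spHom hy]
  exact G.map_maximalIdeal_stalk hn x

section Generic

variable [IsIntegral G.carrier]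

theorem centre_genericPt : centre G.genericPt = genericPoint G.carrier :=
  centre_stalkPt _

theorem centre_nsmul_genericPt [IsAlgClosed K] {n : ℕ} (hn : (n : K) ≠ 0) :
    centre (n • G.genericPt) = genericPoint G.carrier := by
  rw [centre_nsmul, centre_genericPt, G.mulN_genericPoint hn]

theorem centre_neg_genericPt : centre (-G.genericPt) = genericPoint G.carrier := by
  set x := centre (-G.genericPt)
  have h : map (stalkHom (-G.genericPt)) (-G.stalkPt x) = G.genericPt := by
    rw [map_neg, map_stalkHom, neg_neg]
  have h1 : centre (-G.stalkPt x) = genericPoint G.carrier := by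
    rw [← centre_map_of_isLocalHom (stalkHom (-G.genericPt)), h, centre_genericPt]
  have h2 : G.invMor x = genericPoint G.carrier := by
    rw [← h1, centre_neg, centre_stalkPt]
  have h3 : x = G.invMor (genericPoint G.carrier) := by
    show centre (-G.genericPt) = _
    rw [centre_neg, centre_genericPt]
  refine Inseparable.eq (Specializes.antisymm ?_ (G.specializes_generic x))
  rw [h3]
  have := (G.specializes_generic x).map G.invMor.continuous
  rwa [h2] at this

/-- Multiplication by `n` on rational functions. -/
def mulRat [IsAlgClosed K] {n : ℕ} (hn : (n : K) ≠ 0) : G.Rat →ₐ[K] G.Rat :=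
  homAt (n • G.genericPt) (specializes_of_eq (centre_nsmul_genericPt hn))

theorem map_mulRat [IsAlgClosed K] {n : ℕ} (hn : (n : K) ≠ 0) :
    map (mulRat (G := G) hn) G.genericPt = n • G.genericPt :=
  map_homAt _ _

/-- Inversion on rational functions. -/
def negRat : G.Rat →ₐ[K] G.Rat :=
  homAt (-G.genericPt) (specializes_of_eq centre_neg_genericPt)

theorem map_negRat : map (negRat (G := G)) G.genericPt = -G.genericPt :=
  map_homAt _ _

end Generic

/-- A point over a field whose centre is closed comes from a rational point. -/
theorem exists_eq_map_ofId [IsAlgClosed K] {k : Type u} [Field k] [Algebra K k] (P : G.Pt k)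
    (hc : IsClosed ({centre P} : Set G.carrier)) :
    ∃ s : G.Pt K, P = map (Algebra.ofId K k) s := by
  let s : G.Pt K := ⟨pointOfClosedPoint G.str _ hc,
    (pointOfClosedPoint_comp G.str _ hc).trans (by simp [base])⟩
  have hs : centre s = centre P := pointOfClosedPoint_apply G.str _ hc _
  refine ⟨s, ?_⟩
  have hP : IsLocalHom (homAt P (specializes_of_eq rfl)).toRingHom := isLocalHom_homAt P rfl
  have hs' : IsLocalHom (homAt s (specializes_of_eq hs)).toRingHom := isLocalHom_homAt s hs
  have e : homAt P (specializes_of_eq rfl) =
      (Algebra.ofId K k).comp (homAt s (specializes_of_eq hs)) := by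
    refine AlgHom.ext fun z => ?_
    have h0 : homAt s (specializes_of_eq hs)
        (z - algebraMap K _ (homAt s (specializes_of_eq hs) z)) = 0 := by
      rw [map_sub, AlgHom.commutes, Algebra.algebraMap_self, RingHom.id_apply, sub_self]
    have hz : ¬ IsUnit (z - algebraMap K (G.Stalk (centre P))
        (homAt s (specializes_of_eq hs) z)) := fun hu =>
      (hu.map (homAt s (specializes_of_eq hs))).ne_zero h0
    have h1 : homAt P (specializes_of_eq rfl)
        (z - algebraMap K _ (homAt s (specializes_of_eq hs) z)) = 0 := by
      by_contra hne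
      exact hz (hP.map_nonunit _ (isUnit_iff_ne_zero.mpr hne))
    rw [map_sub, AlgHom.commutes, sub_eq_zero] at h1
    exact h1
  rw [← map_homAt s (specializes_of_eq hs), map_map, ← e, map_homAt]

end AV

end FermatAgent.AbVar
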