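import Fermat.Agent.AbVar.Stalk

/-!
# Translations

Translations are automorphisms, so any finite set of rational points lies in an affine open.
-/

set_option autoImplicit false

noncomputable section

universe u

open CategoryTheory CategoryTheory.Limits AlgebraicGeometry NeronModelInfra GoodReductionJacobian

namespace FermatAgent.AbVar

namespace AV

variable {K : Type u} [Field K] (G : AV K)

/-- A rational point as a point over any `K`-scheme. -/
def constPt {T : Scheme.{u}} (t : T ⟶ Spec (CommRingCat.of K)) (a : G.Pt K) :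
    SchemeHomOver t G.str :=
  ⟨t ≫ a.1, by
    rw [Category.assoc, a.2, show base K K = 𝟙 _ from Spec.map_id _, Category.comp_id]⟩

theorem schemeHomOverComp_constPt {T T' : Scheme.{u}} (t : T ⟶ Spec (CommRingCat.of K))
    (t' : T' ⟶ Spec (CommRingCat.of K)) (ψ : T' ⟶ T) (hψ : ψ ≫ t = t') (a : G.Pt K) :
    schemeHomOverComp ψ hψ (G.constPt t a) = G.constPt t' a :=
  Subtype.ext (by
    show ψ ≫ t ≫ a.1 = t' ≫ a.1
    rw [← Category.assoc, hψ])

/-- Translation by a rational point. -/
def translate (a : G.Pt K) : G.carrier ⟶ G.carrier :=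
  (G.law.mul G.str ⟨𝟙 _, Category.id_comp _⟩ (G.constPt G.str a)).1

theorem comp_translate {T : Scheme.{u}} (t : T ⟶ Spec (CommRingCat.of K))
    (x : SchemeHomOver t G.str) (a : G.Pt K) :
    x.1 ≫ G.translate a = (G.law.mul t x (G.constPt t a)).1 := by
  have h := congrArg Subtype.val
    (G.law.mul_natural G.str t x.1 x.2 ⟨𝟙 _, Category.id_comp _⟩ (G.constPt G.str a))
  rw [schemeHomOverComp_coe, G.schemeHomOverComp_constPt] at h
  refine h.trans ?_
  congr 2
  try exact Subtype.ext (Category.comp_id _)

theorem constPt_add {T : Scheme.{u}} (t : T ⟶ Spec (CommRingCat.of K)) (a b : G.Pt K) :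
    G.constPt t (a + b) = G.law.mul t (G.constPt t a) (G.constPt t b) := by
  have ht : t ≫ base K K = t := by rw [show base K K = 𝟙 _ from Spec.map_id _, Category.comp_id]
  exact G.law.mul_natural (base K K) t t ht a b

theorem constPt_zero {T : Scheme.{u}} (t : T ⟶ Spec (CommRingCat.of K)) :
    G.constPt t 0 = G.law.one t := by
  have ht : t ≫ base K K = t := by rw [show base K K = 𝟙 _ from Spec.map_id _, Category.comp_id]
  exact G.law.one_natural (base K K) t t ht

theorem translate_translate (a b : G.Pt K) :
    G.translate a ≫ G.translate b = G.translate (a + b) := by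
  show (G.law.mul G.str ⟨𝟙 _, Category.id_comp _⟩ (G.constPt G.str a)).1 ≫ G.translate b = _
  rw [G.comp_translate G.str, G.law.mul_assoc, ← G.constPt_add]
  rfl

theorem translate_zero : G.translate 0 = 𝟙 _ := by
  rw [translate, constPt_zero, G.law.mul_one]

instance isIso_translate (a : G.Pt K) : IsIso (G.translate a) :=
  ⟨G.translate (-a), by rw [translate_translate, add_neg_cancel, translate_zero],
    by rw [translate_translate, neg_add_cancel, translate_zero]⟩

theorem translate_centre (a s : G.Pt K) : G.translate a (centre s) = centre (s + a) := by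
  have h := G.comp_translate (base K K) s a
  have hc : G.constPt (base K K) a = a := Subtype.ext (by
    show base K K ≫ a.1 = a.1
    exact (congrArg (· ≫ a.1) (Spec.map_id _)).trans (Category.id_comp _))
  rw [hc] at h
  exact congrArg (fun φ => φ (IsLocalRing.closedPoint K)) h

/-- Any finite set of rational points lies in an affine open. -/
theorem exists_affine_forall_mem [IsAlgClosed K] [IrreducibleSpace G.carrier]
    {ι : Type*} [Finite ι] (s : ι → G.Pt K) :
    ∃ U : G.carrier.Opens, IsAffineOpen U ∧ Nonempty U ∧ ∀ i, centre (s i) ∈ U := by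
  obtain ⟨_, ⟨W, hW, rfl⟩, hW₀, -⟩ := G.carrier.isBasis_affineOpens.exists_subset_of_mem_open
    (Set.mem_univ (genericPoint G.carrier)) isOpen_univ
  let O : ι → G.carrier.Opens := fun i => (G.translate (s i)) ⁻¹ᵁ W
  have hO : ∀ i, genericPoint G.carrier ∈ O i := fun i => by
    obtain ⟨y, hy⟩ := (G.translate (s i)).surjective (genericPoint G.carrier)
    exact ((genericPoint_spec G.carrier).specializes trivial).mem_open (O i).isOpen
      (show G.translate (s i) y ∈ W by rw [hy]; exact hW₀)
  have hgen : genericPoint G.carrier ∈ ⋂ i, ((O i : G.carrier.Opens) : Set G.carrier) :=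
    Set.mem_iInter.mpr hO
  have : JacobsonSpace G.carrier := LocallyOfFiniteType.jacobsonSpace G.str
  obtain ⟨a₀, ha₀, hac⟩ := nonempty_inter_closedPoints ⟨_, hgen⟩
    (isOpen_iInter_of_finite fun i => (O i).isOpen).isLocallyClosed
  let a : G.Pt K := ⟨pointOfClosedPoint G.str a₀ hac, by
    exact (pointOfClosedPoint_comp G.str a₀ hac).trans (Spec.map_id _).symm⟩
  have hca : centre a = a₀ := pointOfClosedPoint_apply G.str a₀ hac _
  refine ⟨G.translate a ⁻¹ᵁ W, hW.preimage_of_isIso _, ?_, fun i => ?_⟩
  · obtain ⟨y, hy⟩ := (G.translate a).surjective (genericPoint G.carrier)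
    exact ⟨⟨y, show G.translate a y ∈ W by rw [hy]; exact hW₀⟩⟩
  · show G.translate a (centre (s i)) ∈ W
    have hi : a₀ ∈ O i := Set.mem_iInter.mp ha₀ i
    rw [translate_centre, add_comm, ← translate_centre, hca]
    exact hi

end AV

end FermatAgent.AbVar
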