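import Fermat.Agent.AbVar.Smoothness
import Fermat.Agent.AbVar.LocalHom
import Fermat.Agent.AbVar.Count.Input
import Fermat.Agent.AbVar.Divisor.Sections

/-!
# The data for counting torsion on an abelian variety

The charts are the local rings at rational points expanded in coordinates; the coordinates at an
`n`-torsion point are the pullbacks of the coordinates at zero along multiplication by `n`.
-/

set_option autoImplicit false
set_option linter.unusedSectionVars false
set_option linter.style.haveILetI false

noncomputable section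

universe u

open CategoryTheory AlgebraicGeometry IsLocalRing

namespace FermatAgent.AbVar

namespace Local.IsCoordinateSystem

variable {K : Type u} [Field K] {R : Type u} [CommRing R] [IsLocalRing R] [Algebra K R] {g : ℕ}
  {t : Fin g → R} {R' : Type u} [CommRing R'] [IsLocalRing R'] [Algebra K R']

/-- Compatibility of expansions with a map sending coordinates to coordinates. -/
theorem toPowerSeries_algHom (h : IsCoordinateSystem K t) (φ : R →ₐ[K] R')
    (h' : IsCoordinateSystem K fun i => φ (t i))
    (hφ : (maximalIdeal R).map φ.toRingHom ≤ maximalIdeal R') (r : R) :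
    h'.toPowerSeries (φ r) = h.toPowerSeries r := by
  refine MvPowerSeries.ext fun d => ?_
  obtain ⟨P, hP⟩ := h.exists_aeval_sub_mem (d.degree + 1) r
  have hP' : φ r - MvPolynomial.aeval (fun i => φ (t i)) P ∈ maximalIdeal R' ^ (d.degree + 1) := by
    have e : φ (MvPolynomial.aeval t P) = MvPolynomial.aeval (fun i => φ (t i)) P := by
      rw [← AlgHom.comp_apply, MvPolynomial.comp_aeval]
    rw [← e, ← map_sub]
    refine Ideal.pow_right_mono hφ _ ?_
    rw [← Ideal.map_pow]
    exact Ideal.mem_map_of_mem φ.toRingHom hP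
  have h1 := h.coeff_toPowerSeries_of_mem_pow hP (Nat.lt_succ_self d.degree)
  have h2 := h'.coeff_toPowerSeries_of_mem_pow hP' (Nat.lt_succ_self d.degree)
  rw [map_sub, map_sub, sub_eq_zero, toPowerSeries_aeval] at h1 h2
  rw [h1, h2]

end Local.IsCoordinateSystem

namespace AV

variable {K : Type u} [Field K] [IsAlgClosed K] {G : AV K}

/-- The local ring at a point, inside the function field. -/
def stalkEquiv (x : G.carrier) : G.Stalk x ≃ₐ[K] (G.toRat x).range :=
  AlgEquiv.ofInjective (G.toRat x) (G.toRat_injective x)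

variable (P : G.Pt K) {t : Fin G.dim → G.Stalk (centre P)}
  (ht : Local.IsCoordinateSystem K t)

theorem constantCoeff_toPowerSeries (z : G.Stalk (centre P)) :
    MvPowerSeries.constantCoeff (ht.toPowerSeries z) = stalkHom P z := by
  set c := MvPowerSeries.constantCoeff (ht.toPowerSeries z)
  have hz : ¬ IsUnit (z - algebraMap K _ c) := fun hu =>
    ((hu.map ht.toPowerSeries).map (MvPowerSeries.constantCoeff (σ := Fin G.dim) (R := K))).ne_zero
      (by rw [map_sub, map_sub, AlgHom.commutes, MvPowerSeries.algebraMap_apply,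
        MvPowerSeries.constantCoeff_C, Algebra.algebraMap_self, RingHom.id_apply, sub_self])
  have h0 : stalkHom P (z - algebraMap K _ c) = 0 := by
    by_contra hne
    exact hz ((isLocalHom_stalkHom P).map_nonunit _ (isUnit_iff_ne_zero.mpr hne))
  rw [map_sub, AlgHom.commutes, sub_eq_zero] at h0
  exact h0.symm

/-- The chart at a rational point given by coordinates there. -/
@[reducible]
def chartAt : Chart G.genericPt G.dim where
  ring := (G.toRat (centre P)).range
  isLocal := (stalkEquiv (centre P)).toRingEquiv.isLocalRing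
  pt := map (stalkEquiv (centre P)).toAlgHom (G.stalkPt (centre P))
  map_pt := (map_map _ _ _).trans (G.map_toRat (centre P))
  psi := ht.toPowerSeries.comp (stalkEquiv (centre P)).symm.toAlgHom
  psi_injective := ht.toPowerSeries_injective.comp (stalkEquiv (centre P)).symm.injective
  isUnit_of_ne a ha := by
    obtain ⟨z, rfl⟩ := (stalkEquiv (centre P)).surjective a
    simp only [AlgHom.comp_apply, AlgEquiv.toAlgHom_apply, AlgEquiv.symm_apply_apply] at ha
    refine IsUnit.map (stalkEquiv (centre P)) ?_
    by_contra hz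
    refine ha ?_
    rw [← MvPowerSeries.coeff_zero_eq_constantCoeff_apply]
    exact ht.coeff_toPowerSeries_of_mem_pow (k := 1)
      (by rwa [pow_one, mem_maximalIdeal, mem_nonunits_iff]) (by simp)
  param i := stalkEquiv (centre P) (t i)
  psi_param i := by
    simp only [AlgHom.comp_apply, AlgEquiv.toAlgHom_apply, AlgEquiv.symm_apply_apply]
    exact ht.toPowerSeries_coord i
  mem_pow a k ha := by
    obtain ⟨z, rfl⟩ := (stalkEquiv (centre P)).surjective a
    simp only [AlgHom.comp_apply, AlgEquiv.toAlgHom_apply, AlgEquiv.symm_apply_apply] at ha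
    have hz := ht.mem_pow_iff.mpr ha
    rw [← ht.span_eq] at hz
    have h := Ideal.mem_map_of_mem (stalkEquiv (centre P)).toAlgHom.toRingHom hz
    rw [Ideal.map_pow, Ideal.map_span, ← Set.range_comp] at h
    exact h
  closed f hf := by
    obtain ⟨p, hp, hpf⟩ := hf
    have hint : IsIntegral (G.Stalk (centre P)) f := by
      refine ⟨p.map (stalkEquiv (centre P)).symm.toAlgHom.toRingHom, hp.map _, ?_⟩
      rw [Polynomial.eval₂_map]
      refine Eq.trans ?_ hpf
      congr 1
      refine RingHom.ext fun a => ?_
      obtain ⟨z, rfl⟩ := (stalkEquiv (centre P)).surjective a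
      show algebraMap (G.Stalk (centre P)) G.Rat
        ((stalkEquiv (centre P)).symm (stalkEquiv (centre P) z)) = _
      rw [AlgEquiv.symm_apply_apply]
      rfl
    obtain ⟨z, hz⟩ := IsIntegrallyClosed.algebraMap_eq_of_integral hint
    exact ⟨z, hz⟩

theorem chartAt_psi (z : G.Stalk (centre P)) :
    (chartAt P ht).psi (stalkEquiv (centre P) z) = ht.toPowerSeries z :=
  congrArg ht.toPowerSeries ((stalkEquiv (centre P)).symm_apply_apply z)

theorem chartAt_ev (z : G.Stalk (centre P)) :
    (chartAt P ht).ev (stalkEquiv (centre P) z) = stalkHom P z := by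
  rw [← constantCoeff_toPowerSeries P ht z, Chart.ev_apply]
  rw [chartAt_psi]

theorem chartAt_point : (chartAt P ht).point = P := by
  show map (chartAt P ht).ev (map (stalkEquiv (centre P)).toAlgHom (G.stalkPt (centre P))) = P
  rw [map_map, show (chartAt P ht).ev.comp (stalkEquiv (centre P)).toAlgHom = stalkHom P from
    AlgHom.ext fun z => chartAt_ev P ht z]
  exact map_stalkHom P

theorem chartAt_hasCentre : (chartAt P ht).HasCentre := by
  intro F k _ _ _ _ σ V hV ρ hρ h
  rw [chartAt_point] at h
  haveI := hV.isLocalRing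
  haveI := hρ
  set Q := lift hV (map σ G.genericPt)
  have hc : centre Q = centre P := by
    rw [← centre_map_of_isLocalHom ρ Q, h, centre_map_ofId]
  have h1 : V.val.comp (homAt Q (specializes_of_eq hc)) = σ.comp (G.toRat (centre P)) :=
    algHom_ext_stalkPt (by rw [← map_map, map_homAt, ← map_map, G.map_toRat, map_lift])
  have h2 : ρ.comp (homAt Q (specializes_of_eq hc)) = (Algebra.ofId K k).comp (stalkHom P) :=
    algHom_ext_stalkPt (by rw [← map_map, map_homAt, ← map_map, map_stalkHom]; exact h)
  intro a
  obtain ⟨z, rfl⟩ := (stalkEquiv (centre P)).surjective a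
  have e1 : (homAt Q (specializes_of_eq hc) z : F) = σ (stalkEquiv (centre P) z : G.Rat) :=
    AlgHom.congr_fun h1 z
  refine ⟨e1 ▸ (homAt Q (specializes_of_eq hc) z).2, fun h0 => ?_⟩
  rw [chartAt_ev] at h0
  rw [show (⟨σ (stalkEquiv (centre P) z : G.Rat), _⟩ : V) = homAt Q (specializes_of_eq hc) z from
    Subtype.ext e1.symm, ← AlgHom.comp_apply, h2, AlgHom.comp_apply, h0, map_zero]

variable (G) in
/-- Chosen coordinates at zero. -/
def coord₀ : Fin G.dim → G.Stalk (centre (0 : G.Pt K)) :=
  (exists_isCoordinateSystem (0 : G.Pt K)).choose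

variable (G) in
theorem isCoordinateSystem_coord₀ : Local.IsCoordinateSystem K G.coord₀ :=
  (exists_isCoordinateSystem (0 : G.Pt K)).choose_spec

section Torsion

variable {n : ℕ} (hn : (n : K) ≠ 0) (s : {P : G.Pt K // n • P = 0})

theorem centre_nsmul_stalkPt :
    centre (n • G.stalkPt (centre s.1)) = centre (0 : G.Pt K) := by
  rw [← centre_map_of_isLocalHom (stalkHom s.1), map_nsmul, map_stalkHom, s.2]

/-- Multiplication by `n` from the local ring at zero to the one at a torsion point. -/
def mulStalk : G.Stalk (centre (0 : G.Pt K)) →ₐ[K] G.Stalk (centre s.1) :=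
  homAt (n • G.stalkPt (centre s.1)) (specializes_of_eq (centre_nsmul_stalkPt s))

include hn in
theorem isCoordinateSystem_mulStalk :
    Local.IsCoordinateSystem K fun i => mulStalk s (G.coord₀ i) := by
  refine isCoordinateSystem_of_span s.1 ?_
  rw [← maximalIdeal_map_homAt_nsmul hn (centre_nsmul_stalkPt s), ← G.isCoordinateSystem_coord₀.span_eq,
    Ideal.map_span, ← Set.range_comp]
  rfl

theorem toRat_mulStalk (z : G.Stalk (centre (0 : G.Pt K))) :
    G.toRat (centre s.1) (mulStalk s z) = mulRat hn (G.toRat _ z) := by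
  have h : (G.toRat (centre s.1)).comp (mulStalk s) =
      (mulRat hn).comp (G.toRat (centre (0 : G.Pt K))) :=
    algHom_ext_stalkPt (by
      rw [← map_map, mulStalk, map_homAt, map_nsmul, G.map_toRat, ← map_map, G.map_toRat,
        map_mulRat])
  exact AlgHom.congr_fun h z

theorem mulRat_mem_chartAt (a : (chartAt 0 G.isCoordinateSystem_coord₀).ring) :
    mulRat hn (a : G.Rat) ∈ (chartAt s.1 (isCoordinateSystem_mulStalk hn s)).ring := by
  obtain ⟨z, rfl⟩ := (stalkEquiv (centre (0 : G.Pt K))).surjective a
  exact ⟨mulStalk s z, toRat_mulStalk hn s z⟩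

theorem chartAt_psi_mulRat (a : (chartAt 0 G.isCoordinateSystem_coord₀).ring) :
    (chartAt s.1 (isCoordinateSystem_mulStalk hn s)).psi
        ⟨mulRat hn (a : G.Rat), mulRat_mem_chartAt hn s a⟩ =
      (chartAt 0 G.isCoordinateSystem_coord₀).psi a := by
  obtain ⟨z, rfl⟩ := (stalkEquiv (centre (0 : G.Pt K))).surjective a
  have e : (⟨mulRat hn (stalkEquiv (centre (0 : G.Pt K)) z : G.Rat),
      mulRat_mem_chartAt hn s _⟩ : (chartAt s.1 (isCoordinateSystem_mulStalk hn s)).ring) =
      stalkEquiv (centre s.1) (mulStalk s z) := Subtype.ext (toRat_mulStalk hn s z).symm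
  rw [e, chartAt_psi, chartAt_psi]
  exact G.isCoordinateSystem_coord₀.toPowerSeries_algHom (mulStalk s)
    (isCoordinateSystem_mulStalk hn s)
    (maximalIdeal_map_homAt_nsmul hn (centre_nsmul_stalkPt s)).le z

theorem chartAt_ev_of_valueOf (P : G.Pt K) {t : Fin G.dim → G.Stalk (centre P)}
    (ht : Local.IsCoordinateSystem K t) {f : G.Rat} (hf : G.RegularAt f (centre P)) :
    (chartAt P ht).ev ⟨f, hf⟩ = valueOf P f := by
  obtain ⟨z, rfl⟩ := hf
  rw [valueOf_toRat]
  exact chartAt_ev P ht z

end Torsion

theorem finite_torsion_fiber_closed {n : ℕ} (hn : (n : K) ≠ 0) {x : G.carrier}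
    (hx : G.mulN n x = centre (0 : G.Pt K)) : IsClosed ({x} : Set G.carrier) := by
  have := G.isFinite_mulN hn
  have ho : IsClosed ({centre (0 : G.Pt K)} : Set G.carrier) :=
    (pointEquivClosedPoint G.str ⟨(0 : G.Pt K).1,
      (0 : G.Pt K).2.trans (by simp [base])⟩).2
  set S := G.mulN n ⁻¹' {centre (0 : G.Pt K)}
  have hS : IsClosed S := ho.preimage (G.mulN n).continuous
  haveI : DiscreteTopology S := ((G.mulN n).isDiscrete_preimage_singleton _).to_subtype
  refine isClosed_of_closure_subset fun y hy => ?_
  have hxS : x ∈ S := hx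
  have hyS : y ∈ S := hS.closure_subset_iff.mpr (Set.singleton_subset_iff.mpr hxS) hy
  have h : (⟨x, hxS⟩ : S) ⤳ ⟨y, hyS⟩ :=
    Topology.IsInducing.subtypeVal.specializes_iff.mp (specializes_iff_mem_closure.mpr hy)
  exact (congrArg Subtype.val h.eq).symm

theorem exists_torsion_of_nsmul_eq_zero {n : ℕ} (hn : (n : K) ≠ 0) {k : Type u} [Field k]
    [Algebra K k] (P : G.Pt k) (hP : n • P = 0) :
    ∃ t : {P : G.Pt K // n • P = 0}, P = map (Algebra.ofId K k) t.1 := by
  have hx : G.mulN n (centre P) = centre (0 : G.Pt K) := by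
    rw [← centre_nsmul, hP, ← _root_.map_zero (map (G := G) (Algebra.ofId K k)), centre_map_ofId]
  obtain ⟨s, hs⟩ := exists_eq_map_ofId P (finite_torsion_fiber_closed hn hx)
  refine ⟨⟨s, map_injective (Algebra.ofId K k) (algebraMap K k).injective ?_⟩, hs⟩
  rw [map_nsmul, ← hs, hP, _root_.map_zero]

end AV

open AV in
/-- The data common to all `n`. -/
def countSetting {K : Type u} [Field K] [IsAlgClosed K] (G : AV K) : CountSetting G where
  L := G.Rat
  η := G.genericPt
  negMap := negRat
  map_negMap := map_negRat
  chart₀ := chartAt 0 G.isCoordinateSystem_coord₀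
  point₀ := chartAt_point 0 G.isCoordinateSystem_coord₀
  algebraic := (isTranscendenceBasis_coordinates 0 G.isCoordinateSystem_coord₀).isAlgebraic_field
  B := (exists_sections (essFiniteType_and_trdeg G).2).choose
  x := (exists_sections (essFiniteType_and_trdeg G).2).choose_spec.choose
  one_mem := (exists_sections (essFiniteType_and_trdeg G).2).choose_spec.choose_spec.1
  x_mem := (exists_sections (essFiniteType_and_trdeg G).2).choose_spec.choose_spec.2.1
  x_indep := (exists_sections (essFiniteType_and_trdeg G).2).choose_spec.choose_spec.2.2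

open AV in
/-- The data for the count of `n`-torsion. -/
def countInput {K : Type u} [Field K] [IsAlgClosed K] {G : AV K} {n : ℕ} (hn : (n : K) ≠ 0) :
    CountInput (countSetting G) n where
  mulMap := mulRat hn
  map_mulMap := map_mulRat hn
  finite_torsion := G.finite_torsion hn
  chart s := chartAt s.1 (isCoordinateSystem_mulStalk hn s)
  point_chart s := chartAt_point s.1 _
  hasCentre_chart s := chartAt_hasCentre s.1 _
  mulMap_mem s a := mulRat_mem_chartAt hn s a
  psi_mulMap s a := chartAt_psi_mulRat hn s a
  param_chart s i := toRat_mulStalk hn s (G.coord₀ i)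
  torsion_descends P hP := exists_torsion_of_nsmul_eq_zero hn P hP
  separation := by
    haveI := G.finite_torsion (L := K) hn
    obtain ⟨e, he⟩ := exists_separation (fun s : {P : G.Pt K // n • P = 0} => s.1)
      Subtype.val_injective
    refine ⟨e, fun s t => ?_⟩
    obtain ⟨hreg, hone, hzero⟩ := he s t
    exact ⟨hreg, fun h => (chartAt_ev_of_valueOf t.1 _ hreg).trans (hone h),
      fun h => (chartAt_ev_of_valueOf t.1 _ hreg).trans (hzero h)⟩

end FermatAgent.AbVar

end
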