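import Fermat.Agent.AbVar.Chart

/-!
# Generisations of a point and primes of its local ring

Every prime of a local ring of the variety is the vanishing prime of a generisation, and a point
at which all functions on an affine open are regular belongs to that open.
-/

set_option autoImplicit false
set_option linter.style.haveILetI false

noncomputable section

universe u

open CategoryTheory CategoryTheory.Limits AlgebraicGeometry

namespace FermatAgent.AbVar

namespace AV

variable {K : Type u} [Field K] {G : AV K}

theorem stalkHom_stalkPt (x : G.carrier) (z : G.Stalk x) :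
    stalkHom (G.stalkPt x) (G.spHom (specializes_of_eq (centre_stalkPt x)) z) = z := by
  haveI : IsLocalHom (AlgHom.id K (G.Stalk x)).toRingHom := ⟨fun _ h => h⟩
  obtain ⟨e, he⟩ := stalk_hom_ext (φ := AlgHom.id K (G.Stalk x)) (map_id (G.stalkPt x))
  exact (he z).symm

/-- The vanishing prime of every prime ideal of a local ring is a generisation. -/
theorem exists_point_of_prime {x : G.carrier} (p : Ideal (G.Stalk x)) [p.IsPrime] :
    ∃ y, ∃ h : y ⤳ x, ∀ z, IsUnit (G.spHom h z) ↔ z ∉ p := by
  let ι : G.Stalk x →ₐ[K] Localization.AtPrime p := IsScalarTower.toAlgHom K _ _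
  let P := map ι (G.stalkPt x)
  refine ⟨centre P, (centre_map_specializes ι _).trans (specializes_of_eq (centre_stalkPt x)),
    fun z => ?_⟩
  have key : stalkHom P (G.spHom ((centre_map_specializes ι _).trans
      (specializes_of_eq (centre_stalkPt x))) z) = ι z := by
    rw [← G.spHom_spHom (specializes_of_eq (centre_stalkPt x))
      (centre_map_specializes ι (G.stalkPt x))]
    exact (stalkHom_map ι (G.stalkPt x) _).trans (congrArg ι (stalkHom_stalkPt x z))
  rw [← isUnit_map_iff (stalkHom P).toRingHom]
  show IsUnit (stalkHom P _) ↔ _
  rw [key]
  exact IsLocalization.AtPrime.isUnit_to_map_iff (Localization.AtPrime p) p z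

variable [IsIntegral G.carrier]

theorem toRat_germ {U : G.carrier.Opens} [Nonempty U] {x : G.carrier} (hx : x ∈ U)
    (r : Γ(G.carrier, U)) :
    G.toRat x ((G.carrier.presheaf.germ U x hx).hom r) = G.carrier.germToFunctionField U r :=
  Scheme.algebraMap_germ_eq_germToFunctionField (X := G.carrier) hx r

/-- Affineness: a point where every function on an affine open is regular lies in the open. -/
theorem mem_of_forall_regularAt {U : G.carrier.Opens} (hU : IsAffineOpen U) [Nonempty U]
    {y : G.carrier} (h : ∀ r, G.RegularAt (G.carrier.germToFunctionField U r) y) : y ∈ U := by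
  choose w hw using h
  let φ : Γ(G.carrier, U) →+* G.Stalk y :=
    { toFun := w
      map_one' := G.toRat_injective y (by rw [hw, map_one, map_one])
      map_mul' := fun a b => G.toRat_injective y (by rw [hw, map_mul, map_mul, hw, hw])
      map_zero' := G.toRat_injective y (by rw [hw, map_zero, map_zero])
      map_add' := fun a b => G.toRat_injective y (by rw [hw, map_add, map_add, hw, hw]) }
  have hgen : genericPoint G.carrier ∈ U :=
    ((genericPoint_spec G.carrier).mem_open_set_iff U.isOpen).mpr (by simpa using ‹Nonempty U›)
  have hφ : φ.comp (chartStr hU) = algebraMap K (G.Stalk y) := RingHom.ext fun c =>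
    G.toRat_injective y ((hw _).trans
      ((germ_chartStr hU hgen c).trans ((G.toRat y).commutes c).symm))
  have heq : chartPoint hU φ hφ = G.stalkPt y := by
    refine map_injective (G.toRat y) (G.toRat_injective y) ?_
    rw [map_chartPoint, G.map_toRat]
    refine pt_ext ?_
    show Spec.map (CommRingCat.ofHom ((G.toRat y).toRingHom.comp φ)) ≫ hU.fromSpec = _
    rw [show (G.toRat y).toRingHom.comp φ = (G.carrier.germToFunctionField U).hom from
      RingHom.ext hw]
    exact hU.fromSpecStalk_eq_fromSpecStalk hgen
  have := centre_chartPoint_mem hU φ hφ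
  rwa [heq, centre_stalkPt] at this

theorem regularAt_germToFunctionField {U : G.carrier.Opens} [Nonempty U] {x : G.carrier}
    (hx : x ∈ U) (r : Γ(G.carrier, U)) :
    G.RegularAt (G.carrier.germToFunctionField U r) x :=
  ⟨_, toRat_germ hx r⟩

end AV

end FermatAgent.AbVar
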