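import Fermat.Agent.AbVar.Basic
import Fermat.Agent.Curve.RR.Setup

/-!
# Statements shared by the parts of the torsion count

`GeometricInput` is what the scheme side supplies to the counting argument; `DegreeCube` is what
the curve side supplies: the cube relation for degrees of line bundles pulled back to a curve.
-/

set_option autoImplicit false
set_option linter.style.haveILetI false

noncomputable section

universe u

open AlgebraicCurve FermatAgent.Curve

namespace FermatAgent.AbVar

open AV

variable {K : Type u} [Field K] {G : AV K}
variable {k F : Type u} [Field k] [Field F] [Algebra K k] [Algebra k F] [Algebra K F]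
  [IsScalarTower K k F]

/-- The local ring of a place, as a `K`-subalgebra. -/
def placeAlg (v : Place k F) : Subalgebra K F where
  toSubsemiring := v.toValuationSubring.toSubring.toSubsemiring
  algebraMap_mem' c := by
    rw [IsScalarTower.algebraMap_apply K k F]
    exact v.algebraMap_mem' _

theorem isVal_placeAlg (v : Place k F) : AV.IsVal (placeAlg (K := K) v) :=
  v.toValuationSubring.mem_or_inv_mem

/-- The order at a place of the pullback of a line bundle along a point. -/
def ordAt (B : G.LineBundle) (P : G.Pt F) (v : Place k F) : ℤ :=
  v.ord ((B.val (isVal_placeAlg v) P : Fˣ) : F)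

/-- Only finitely many places contribute to the pullback of a line bundle. -/
theorem finite_support_ordAt [IsAlgClosed k] [IsFunctionField1 k F] (B : G.LineBundle)
    (P : G.Pt F) :
    (Function.support fun v : Place k F => ordAt B P v).Finite := by
  obtain ⟨s, hs⟩ := B.nice P
  refine Set.Finite.subset (s.finite_toSet.biUnion fun a _ => finite_setOf_notMem (K := k) a)
    fun v hv => ?_
  simp only [Set.mem_iUnion, Finset.mem_coe, Set.mem_ofPred_eq, exists_prop]
  by_contra hall
  push Not at hall
  haveI := (isVal_placeAlg (K := K) v).isLocalRing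
  obtain ⟨Q, hQ, e, he⟩ := hs (placeAlg (K := K) v) hall
  refine hv ?_
  show v.ord ((B.t _ _ : Fˣ) : F) = 0
  rw [AV.lift_eq (isVal_placeAlg v) hQ, he]
  have h1 := ord_nonneg_of_mem' v (e : placeAlg (K := K) v).2
  have h2 := ord_nonneg_of_mem' v (↑e⁻¹ : placeAlg (K := K) v).2
  rw [← inv_eq_of_mul_eq_one_right (show ((e : placeAlg (K := K) v) : F) *
    ((↑e⁻¹ : placeAlg (K := K) v) : F) = 1 from congrArg Subtype.val (Units.mul_inv e)),
    v.ord_inv] at h2
  omega

/-- The degree of the pullback of a line bundle along a point of a curve. -/
def degAlong (k : Type u) [Field k] {F : Type u} [Field F] [Algebra K k] [Algebra k F]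
    [Algebra K F] [IsScalarTower K k F] (B : G.LineBundle) (P : G.Pt F) : ℤ :=
  ∑ᶠ v : Place k F, ordAt B P v

/-- `P` specialises to `Q` at the place `v`. -/
def SpecialisesTo (P : G.Pt F) (v : Place k F) (Q : G.Pt k) : Prop :=
  ∃ ρ : placeAlg (K := K) v →ₐ[K] k,
    IsLocalHom ρ.toRingHom ∧ (∀ c : k, ∀ h : algebraMap k F c ∈ placeAlg (K := K) v, ρ ⟨_, h⟩ = c) ∧
      AV.map ρ (AV.lift (isVal_placeAlg v) P) = Q

variable (G) in
/-- The theorem of the cube for degrees: on a curve, points vanishing at a common place satisfy
the cube relation, and constant points have degree zero. -/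
def DegreeCube : Prop :=
  ∀ (B : G.LineBundle) {k F : Type u} [Field k] [Field F] [Algebra K k] [Algebra k F]
    [Algebra K F] [IsScalarTower K k F] [IsAlgClosed k] [IsFunctionField1 k F] (v : Place k F)
    (x y z : G.Pt F), SpecialisesTo x v 0 → SpecialisesTo y v 0 → SpecialisesTo z v 0 →
    degAlong k B (x + y + z) + degAlong k B x + degAlong k B y + degAlong k B z =
      degAlong k B (x + y) + degAlong k B (x + z) + degAlong k B (y + z)

end FermatAgent.AbVar
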