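import Fermat.Agent.AbVar.Stalk

/-!
# Rational functions on the abelian variety

The function field with its generic point, specialisation of local rings, and values of rational
functions at points.
-/

set_option autoImplicit false

noncomputable section

universe u

open CategoryTheory CategoryTheory.Limits AlgebraicGeometry

namespace FermatAgent.AbVar

namespace AV

variable {K : Type u} [Field K] (G : AV K)

theorem spec_algebraMap_stalkSpecializes {x y : G.carrier} (h : y ⤳ x) (c : K) :
    (G.carrier.presheaf.stalkSpecializes h).hom (algebraMap K (G.Stalk x) c) =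
      algebraMap K (G.Stalk y) c := by
  have e : Spec.map (CommRingCat.ofHom
      ((G.carrier.presheaf.stalkSpecializes h).hom.comp (algebraMap K (G.Stalk x)))) =
      base K (G.Stalk y) := by
    rw [CommRingCat.ofHom_comp, Spec.map_comp]
    refine Eq.trans (congrArg (_ ≫ ·) (G.base_stalk x)) ?_
    rw [G.base_stalk y, ← Category.assoc]
    exact congrArg (· ≫ G.str) (Scheme.SpecMap_stalkSpecializes_fromSpecStalk h)
  exact RingHom.congr_fun (congrArg CommRingCat.Hom.hom (Spec.map_injective e)) c

/-- The map of local rings attached to a specialisation. -/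
def spHom {x y : G.carrier} (h : y ⤳ x) : G.Stalk x →ₐ[K] G.Stalk y where
  toRingHom := (G.carrier.presheaf.stalkSpecializes h).hom
  commutes' := G.spec_algebraMap_stalkSpecializes h

theorem spHom_apply {x y : G.carrier} (h : y ⤳ x) (z : G.Stalk x) :
    G.spHom h z = (G.carrier.presheaf.stalkSpecializes h).hom z := rfl

@[simp]
theorem spHom_rfl {x : G.carrier} (h : x ⤳ x) (z : G.Stalk x) : G.spHom h z = z := by
  simp [spHom_apply]

theorem spHom_spHom {x y w : G.carrier} (h : y ⤳ x) (h' : w ⤳ y) (z : G.Stalk x) :
    G.spHom h' (G.spHom h z) = G.spHom (h'.trans h) z := by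
  simp only [spHom_apply, ← CommRingCat.comp_apply]
  rw [G.carrier.presheaf.stalkSpecializes_comp]

theorem map_spHom {x y : G.carrier} (h : y ⤳ x) :
    map (G.spHom h) (G.stalkPt x) = G.stalkPt y :=
  pt_ext (Scheme.SpecMap_stalkSpecializes_fromSpecStalk h)

section Integral

variable [IsIntegral G.carrier]

/-- The function field. -/
abbrev Rat : Type u := G.carrier.functionField

theorem specializes_generic (x : G.carrier) : genericPoint G.carrier ⤳ x :=
  (genericPoint_spec G.carrier).specializes trivial

/-- The local ring at a point inside the function field. -/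
def toRat (x : G.carrier) : G.Stalk x →ₐ[K] G.Rat := G.spHom (G.specializes_generic x)

theorem toRat_apply (x : G.carrier) (z : G.Stalk x) :
    G.toRat x z = algebraMap (G.Stalk x) G.Rat z := rfl

theorem toRat_injective (x : G.carrier) : Function.Injective (G.toRat x) :=
  IsFractionRing.injective (G.Stalk x) G.Rat

theorem toRat_spHom {x y : G.carrier} (h : y ⤳ x) (z : G.Stalk x) :
    G.toRat y (G.spHom h z) = G.toRat x z :=
  G.spHom_spHom _ _ z

/-- The generic point. -/
def genericPt : G.Pt G.Rat := G.stalkPt (genericPoint G.carrier)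

theorem map_toRat (x : G.carrier) : map (G.toRat x) (G.stalkPt x) = G.genericPt :=
  G.map_spHom _

/-- A rational function is regular at a point. -/
def RegularAt (f : G.Rat) (x : G.carrier) : Prop := ∃ z, G.toRat x z = f

theorem RegularAt.mono {f : G.Rat} {x y : G.carrier} (hf : G.RegularAt f x) (h : y ⤳ x) :
    G.RegularAt f y := by
  obtain ⟨z, rfl⟩ := hf
  exact ⟨G.spHom h z, G.toRat_spHom h z⟩

variable {G} {R S : Type u} [CommRing R] [IsLocalRing R] [Algebra K R] [CommRing S]
  [IsLocalRing S] [Algebra K S]

/-- The value at a point of a rational function (zero if it is not regular at the centre). -/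
def valueOf (P : G.Pt R) (f : G.Rat) : R :=
  open Classical in
  if h : G.RegularAt f (centre P) then stalkHom P h.choose else 0

theorem valueOf_toRat (P : G.Pt R) (z : G.Stalk (centre P)) :
    valueOf P (G.toRat (centre P) z) = stalkHom P z := by
  have h : G.RegularAt (G.toRat (centre P) z) (centre P) := ⟨z, rfl⟩
  rw [valueOf, dif_pos h]
  exact congrArg _ (G.toRat_injective _ h.choose_spec)

theorem valueOf_map (h : R →ₐ[K] S) (P : G.Pt R) {f : G.Rat}
    (hf : G.RegularAt f (centre P)) : valueOf (map h P) f = h (valueOf P f) := by
  obtain ⟨z, rfl⟩ := hf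
  rw [valueOf_toRat, ← G.toRat_spHom (centre_map_specializes h P), valueOf_toRat]
  exact stalkHom_map h P z

theorem valueOf_mul (P : G.Pt R) {f g : G.Rat} (hf : G.RegularAt f (centre P))
    (hg : G.RegularAt g (centre P)) : valueOf P (f * g) = valueOf P f * valueOf P g := by
  obtain ⟨z, rfl⟩ := hf
  obtain ⟨w, rfl⟩ := hg
  rw [← map_mul, valueOf_toRat, valueOf_toRat, valueOf_toRat, map_mul]

theorem valueOf_one (P : G.Pt R) : valueOf P (1 : G.Rat) = 1 := by
  rw [← map_one (G.toRat (centre P)), valueOf_toRat, map_one]

end Integral

end AV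

end FermatAgent.AbVar
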