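import Fermat.Agent.AbVar.Generisation
import Fermat.Agent.AbVar.Local.Change

/-!
# Consequences of smoothness

The variety is integral, its local rings are factorial, its rational points have coordinate
systems, and these give transcendence bases of the function field.
-/

set_option autoImplicit false
set_option linter.style.haveILetI false

noncomputable section

universe u

open CategoryTheory CategoryTheory.Limits AlgebraicGeometry TopologicalSpace

namespace FermatAgent.AbVar

namespace AV

variable {K : Type u} [Field K] (G : AV K)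

instance : SmoothOfRelativeDimension G.dim G.str := G.smoothDim

instance : IsLocallyNoetherian G.carrier := LocallyOfFiniteType.isLocallyNoetherian G.str

instance : CompactSpace G.carrier := QuasiCompact.compactSpace_of_compactSpace G.str

/-- An affine chart with standard smooth coordinate ring around every point. -/
theorem exists_smooth_chart (x : G.carrier) :
    ∃ (V : G.carrier.Opens) (hV : IsAffineOpen V), x ∈ V ∧
      (chartStr hV).IsStandardSmoothOfRelativeDimension G.dim := by
  obtain ⟨U, hU, V, hV, hxV, e, h⟩ :=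
    SmoothOfRelativeDimension.exists_isStandardSmoothOfRelativeDimension (n := G.dim) (f := G.str) x
  obtain rfl : U = ⊤ := by
    refine eq_top_iff.mpr fun y _ => ?_
    exact (Subsingleton.elim (G.str x) y) ▸ e hxV
  refine ⟨V, hV, hxV, ?_⟩
  have hcomp : chartStr hV = (G.str.appLE ⊤ V e).hom.comp
      (Scheme.ΓSpecIso (CommRingCat.of K)).inv.hom := by
    refine congrArg CommRingCat.Hom.hom (Spec.map_injective (?_ :
      Spec.map (CommRingCat.ofHom (chartStr hV)) =
        Spec.map ((Scheme.ΓSpecIso (CommRingCat.of K)).inv ≫ G.str.appLE ⊤ V e)))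
    rw [spec_chartStr, Spec.map_comp, ← IsAffineOpen.SpecMap_appLE_fromSpec G.str hU hV e,
      IsAffineOpen.fromSpec_top, Scheme.isoSpec_Spec_inv]
  rw [hcomp]
  exact RingHom.isStandardSmoothOfRelativeDimension_respectsIso.2 _
    (Scheme.ΓSpecIso (CommRingCat.of K)).symm.commRingCatIsoToRingEquiv h

variable {G}

/-- The germ map of an affine chart into a local ring, as an algebra structure. -/
@[instance_reducible]
def germAlgebra {V : G.carrier.Opens} {x : G.carrier} (hx : x ∈ V) :
    Algebra Γ(G.carrier, V) (G.Stalk x) :=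
  (G.carrier.presheaf.germ V x hx).hom.toAlgebra

theorem isLocalization_stalk {V : G.carrier.Opens} (hV : IsAffineOpen V) {x : G.carrier}
    (hx : x ∈ V) :
    letI := germAlgebra (G := G) hx
    IsLocalization.AtPrime (G.Stalk x) (hV.primeIdealOf ⟨x, hx⟩).asIdeal :=
  hV.isLocalization_stalk ⟨x, hx⟩

/-- A rational point of a chart with centre `x`. -/
theorem exists_ufd_and_coordinates_of_chartPoint [Infinite K] {V : G.carrier.Opens}
    (hV : IsAffineOpen V) (hsm : (chartStr hV).IsStandardSmoothOfRelativeDimension G.dim)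
    {x : G.carrier} (hx : x ∈ V) (φ : Γ(G.carrier, V) →+* K)
    (hφ : φ.comp (chartStr hV) = RingHom.id K)
    (hker : RingHom.ker φ = (hV.primeIdealOf ⟨x, hx⟩).asIdeal) :
    (IsDomain (G.Stalk x) ∧ UniqueFactorizationMonoid (G.Stalk x)) ∧
      ∃ t : Fin G.dim → G.Stalk x, Local.IsCoordinateSystem K t := by
  letI := chartAlgebra hV
  letI := germAlgebra (G := G) hx
  haveI : Algebra.IsStandardSmoothOfRelativeDimension G.dim K Γ(G.carrier, V) := hsm
  haveI : IsScalarTower K Γ(G.carrier, V) (G.Stalk x) :=
    IsScalarTower.of_algebraMap_eq fun c => (germ_chartStr hV hx c).symm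
  let φA : Γ(G.carrier, V) →ₐ[K] K := { φ with commutes' := fun c => RingHom.congr_fun hφ c }
  haveI : (RingHom.ker φA).IsPrime := RingHom.ker_isPrime φA.toRingHom
  haveI : IsLocalization.AtPrime (G.Stalk x) (RingHom.ker φA) := by
    have h := isLocalization_stalk hV hx
    have e : RingHom.ker φA = (hV.primeIdealOf ⟨x, hx⟩).asIdeal := hker
    simp only [e]
    exact h
  refine ⟨Local.isDomain_and_ufd_of_isStandardSmooth (g := G.dim) φA (G.Stalk x), ?_⟩
  obtain ⟨y, -, hy⟩ :=
    Local.exists_coordinateSystem_of_isStandardSmooth (g := G.dim) φA (G.Stalk x)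
  exact ⟨_, hy⟩

/-- A closed point of a chart is the centre of a rational point of the chart. -/
theorem exists_chartPoint_of_isClosed [IsAlgClosed K] {V : G.carrier.Opens} (hV : IsAffineOpen V)
    {x : G.carrier} (hx : x ∈ V) (hc : IsClosed ({x} : Set G.carrier)) :
    ∃ φ : Γ(G.carrier, V) →+* K, φ.comp (chartStr hV) = RingHom.id K ∧
      RingHom.ker φ = (hV.primeIdealOf ⟨x, hx⟩).asIdeal := by
  letI := chartAlgebra hV
  haveI : Algebra.FiniteType K Γ(G.carrier, V) := finiteType_chartStr hV
  set m := (hV.primeIdealOf ⟨x, hx⟩).asIdeal with hm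
  haveI : m.IsMaximal := hV.primeIdealOf_isMaximal_of_isClosed ⟨x, hx⟩ hc
  letI : Field (Γ(G.carrier, V) ⧸ m) := Ideal.Quotient.field m
  haveI : Module.Finite K (Γ(G.carrier, V) ⧸ m) :=
    finite_of_finite_type_of_isJacobsonRing K (Γ(G.carrier, V) ⧸ m)
  have hbij : Function.Bijective (algebraMap K (Γ(G.carrier, V) ⧸ m)) :=
    IsAlgClosed.algebraMap_bijective_of_isIntegral
  let e := RingEquiv.ofBijective _ hbij
  refine ⟨e.symm.toRingHom.comp (Ideal.Quotient.mk m), RingHom.ext fun c => ?_, ?_⟩
  · exact e.symm_apply_apply c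
  · rw [RingHom.ker_equiv_comp, Ideal.mk_ker]

variable [IsAlgClosed K]

/-- The local rings are factorial domains. -/
theorem isDomain_and_ufd_stalk (y : G.carrier) :
    IsDomain (G.Stalk y) ∧ UniqueFactorizationMonoid (G.Stalk y) := by
  obtain ⟨x, hxy, hc⟩ := IsClosed.exists_closed_singleton (S := closure ({y} : Set G.carrier))
    isClosed_closure ⟨y, subset_closure rfl⟩
  have h : y ⤳ x := specializes_iff_mem_closure.mpr hxy
  obtain ⟨V, hV, hx, hsm⟩ := G.exists_smooth_chart x
  have hy : y ∈ V := h.mem_open V.isOpen hx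
  obtain ⟨φ, hφ, hker⟩ := exists_chartPoint_of_isClosed hV hx hc
  obtain ⟨⟨hdom, hufd⟩, -⟩ := exists_ufd_and_coordinates_of_chartPoint hV hsm hx φ hφ hker
  letI := germAlgebra (G := G) hx
  letI := germAlgebra (G := G) hy
  letI : Algebra (G.Stalk x) (G.Stalk y) := (G.spHom h).toRingHom.toAlgebra
  haveI : IsScalarTower Γ(G.carrier, V) (G.Stalk x) (G.Stalk y) :=
    IsScalarTower.of_algebraMap_eq fun r =>
      (TopCat.Presheaf.germ_stalkSpecializes_apply G.carrier.presheaf hx h r).symm
  haveI := isLocalization_stalk hV hx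
  haveI := isLocalization_stalk hV hy
  have hle : (hV.primeIdealOf ⟨x, hx⟩).asIdeal.primeCompl ≤
      (hV.primeIdealOf ⟨y, hy⟩).asIdeal.primeCompl := by
    intro b hb
    refine (IsLocalization.AtPrime.isUnit_to_map_iff (G.Stalk y) _ b).mp ?_
    rw [IsScalarTower.algebraMap_apply _ (G.Stalk x) (G.Stalk y)]
    exact ((IsLocalization.AtPrime.isUnit_to_map_iff (G.Stalk x) _ b).mpr hb).map _
  haveI : IsLocalization (hV.primeIdealOf ⟨x, hx⟩).asIdeal.primeCompl (G.Stalk x) :=
    isLocalization_stalk hV hx
  haveI := IsLocalization.isLocalization_of_submonoid_le (G.Stalk x) (G.Stalk y) _ _ hle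
  set M := (hV.primeIdealOf ⟨y, hy⟩).asIdeal.primeCompl.map (algebraMap Γ(G.carrier, V) (G.Stalk x))
  have hM : M ≤ nonZeroDivisors (G.Stalk x) := by
    refine le_nonZeroDivisors_of_noZeroDivisors fun h0 => ?_
    obtain ⟨b, hb, hb0⟩ := h0
    have h1 : IsUnit (algebraMap Γ(G.carrier, V) (G.Stalk y) b) :=
      IsLocalization.map_units (G.Stalk y) (⟨b, hb⟩ : (hV.primeIdealOf ⟨y, hy⟩).asIdeal.primeCompl)
    rw [IsScalarTower.algebraMap_apply _ (G.Stalk x) (G.Stalk y), hb0, map_zero] at h1
    exact not_isUnit_zero h1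
  haveI : IsDomain (G.Stalk y) :=
    IsLocalization.isDomain_of_le_nonZeroDivisors (G.Stalk y) hM
  exact ⟨inferInstance, UniqueFactorizationMonoid.of_isLocalization M (G.Stalk y)⟩

instance (y : G.carrier) : IsDomain (G.Stalk y) := (isDomain_and_ufd_stalk y).1

instance (y : G.carrier) : UniqueFactorizationMonoid (G.Stalk y) := (isDomain_and_ufd_stalk y).2

theorem isReduced_carrier : IsReduced G.carrier :=
  haveI : ∀ x : G.carrier, _root_.IsReduced (G.carrier.presheaf.stalk x) := fun x =>
    haveI : IsDomain (G.Stalk x) := inferInstance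
    inferInstanceAs (_root_.IsReduced (G.Stalk x))
  isReduced_of_isReduced_stalk _

/-- The generisations of a point have a maximal element. -/
theorem exists_specializes_all (x : G.carrier) : ∃ ξ, ∀ y : G.carrier, y ⤳ x → ξ ⤳ y := by
  let b : PrimeSpectrum (G.carrier.presheaf.stalk x) :=
    ⟨⊥, haveI : IsDomain (G.carrier.presheaf.stalk x) := inferInstanceAs (IsDomain (G.Stalk x))
      Ideal.isPrime_bot⟩
  refine ⟨G.carrier.fromSpecStalk x b, fun y hy => ?_⟩
  obtain ⟨p, rfl⟩ : y ∈ Set.range (G.carrier.fromSpecStalk x) := by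
    rw [Scheme.range_fromSpecStalk]; exact hy
  have : b ⤳ p := (PrimeSpectrum.le_iff_specializes b p).mp bot_le
  exact this.map (G.carrier.fromSpecStalk x).continuous

theorem irreducibleSpace_carrier : IrreducibleSpace G.carrier := by
  haveI : AlgebraicGeometry.IsNoetherian G.carrier := {}
  haveI : NoetherianSpace G.carrier := inferInstance
  haveI : ConnectedSpace G.carrier := by
    rw [connectedSpace_iff_univ]
    convert G.bundle.connectedFibres (IsLocalRing.closedPoint K)
    exact Set.ext fun x => iff_of_true trivial (Subsingleton.elim _ _)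
  have hfin := NoetherianSpace.finite_irreducibleComponents (α := G.carrier)
  obtain ⟨x₀⟩ : Nonempty G.carrier := inferInstance
  set Z := irreducibleComponent x₀ with hZ
  have hZmem : Z ∈ irreducibleComponents G.carrier := irreducibleComponent_mem_irreducibleComponents x₀
  have hdisj : ∀ Z' ∈ irreducibleComponents G.carrier, ∀ x, x ∈ Z → x ∈ Z' → Z' = Z := by
    intro Z' hZ' x hxZ hxZ'
    obtain ⟨ξ, hξ⟩ := exists_specializes_all (G := G) x
    have key : ∀ W ∈ irreducibleComponents G.carrier, x ∈ W → W = closure {ξ} := by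
      intro W hW hxW
      obtain ⟨η, hη⟩ := QuasiSober.sober hW.1 (isClosed_of_mem_irreducibleComponents W hW)
      have h1 : η ⤳ x := hη.specializes hxW
      have hsub : W ⊆ closure {ξ} := fun w hw =>
        specializes_iff_mem_closure.mp ((hξ η h1).trans (hη.specializes hw))
      exact le_antisymm hsub (hW.2 isIrreducible_singleton.closure hsub)
    rw [key Z' hZ' hxZ', key Z hZmem hxZ]
  have hclosed : IsClosed Zᶜ := by
    have heq : Zᶜ = ⋃ Z' ∈ irreducibleComponents G.carrier \ {Z}, Z' := by
      ext x
      simp only [Set.mem_compl_iff, Set.mem_iUnion, Set.mem_sdiff, Set.mem_singleton_iff]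
      refine ⟨fun hx => ⟨irreducibleComponent x,
        ⟨irreducibleComponent_mem_irreducibleComponents x, fun h => hx (h ▸ mem_irreducibleComponent)⟩,
          mem_irreducibleComponent⟩, ?_⟩
      rintro ⟨Z', ⟨hZ', hne⟩, hx⟩ hxZ
      exact hne (hdisj Z' hZ' x hxZ hx)
    rw [heq]
    exact (hfin.sdiff).isClosed_biUnion fun Z' hZ' =>
      isClosed_of_mem_irreducibleComponents Z' hZ'.1
  have huniv : Z = Set.univ :=
    (isClopen_iff.mp ⟨isClosed_irreducibleComponent, isClosed_compl_iff.mp hclosed⟩).resolve_left
      (Set.nonempty_iff_ne_empty.mp ⟨x₀, mem_irreducibleComponent⟩)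
  rw [irreducibleSpace_def]
  show IsIrreducible (Set.univ : Set G.carrier)
  exact huniv ▸ isIrreducible_irreducibleComponent

instance isIntegral_carrier : IsIntegral G.carrier := by
  haveI := isReduced_carrier (G := G)
  haveI := irreducibleSpace_carrier (G := G)
  exact isIntegral_of_irreducibleSpace_of_isReduced _

instance (y : G.carrier) : IsIntegrallyClosed (G.Stalk y) := inferInstance

/-- A rational point has a coordinate system. -/
theorem exists_isCoordinateSystem (P : G.Pt K) :
    ∃ t : Fin G.dim → G.Stalk (centre P), Local.IsCoordinateSystem K t := by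
  obtain ⟨V, hV, hx, hsm⟩ := G.exists_smooth_chart (centre P)
  refine (exists_ufd_and_coordinates_of_chartPoint hV hsm hx (chartCoord P hx)
    (by rw [chartCoord_comp hV P hx]; rfl) ?_).2
  letI := germAlgebra (G := G) hx
  haveI := isLocalization_stalk hV hx
  ext b
  rw [RingHom.mem_ker, ← not_iff_not, ← Ideal.mem_primeCompl_iff,
    ← (IsLocalization.AtPrime.isUnit_to_map_iff (G.Stalk (centre P))
    (hV.primeIdealOf ⟨centre P, hx⟩).asIdeal b), ← isUnit_map_iff (stalkHom P).toRingHom]
  exact isUnit_iff_ne_zero.symm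

/-- Any `dim` generators of the maximal ideal at a rational point are coordinates. -/
theorem isCoordinateSystem_of_span (P : G.Pt K) {t : Fin G.dim → G.Stalk (centre P)}
    (ht : Ideal.span (Set.range t) = IsLocalRing.maximalIdeal _) :
    Local.IsCoordinateSystem K t :=
  let ⟨_, hs⟩ := exists_isCoordinateSystem P
  hs.of_span ht

variable (G) in
theorem essFiniteType_and_trdeg :
    Algebra.EssFiniteType K G.Rat ∧ Algebra.trdeg K G.Rat = G.dim := by
  obtain ⟨V, hV, hx, hsm⟩ := G.exists_smooth_chart (centre (0 : G.Pt K))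
  haveI : Nonempty V := ⟨⟨_, hx⟩⟩
  letI := chartAlgebra hV
  haveI : Algebra.IsStandardSmoothOfRelativeDimension G.dim K Γ(G.carrier, V) := hsm
  haveI : IsDomain Γ(G.carrier, V) :=
    Function.Injective.isDomain _ (Scheme.germToFunctionField_injective G.carrier V)
  haveI : IsFractionRing Γ(G.carrier, V) G.Rat := functionField_isFractionRing_of_isAffineOpen _ _ hV
  haveI : IsScalarTower K Γ(G.carrier, V) G.Rat :=
    IsScalarTower.of_algebraMap_eq fun c => (germ_chartStr hV _ c).symm
  haveI : Algebra.EssFiniteType Γ(G.carrier, V) G.Rat :=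
    Algebra.EssFiniteType.of_isLocalization _ (nonZeroDivisors Γ(G.carrier, V))
  haveI : Algebra.FiniteType K Γ(G.carrier, V) := finiteType_chartStr hV
  refine ⟨Algebra.EssFiniteType.comp K Γ(G.carrier, V) G.Rat, ?_⟩
  let φ : Γ(G.carrier, V) →ₐ[K] K :=
    { chartCoord (0 : G.Pt K) hx with
      commutes' := fun c => RingHom.congr_fun (chartCoord_comp hV _ hx) c }
  haveI : (RingHom.ker φ).IsPrime := RingHom.ker_isPrime φ.toRingHom
  haveI : IsNoetherianRing Γ(G.carrier, V) := Algebra.FiniteType.isNoetherianRing K _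
  haveI : IsNoetherianRing (Localization.AtPrime (RingHom.ker φ)) :=
    IsLocalization.isNoetherianRing (RingHom.ker φ).primeCompl _ inferInstance
  obtain ⟨y, -, -, -, h⟩ := Local.exists_coordinates_isTranscendenceBasis (g := G.dim) φ
    (Localization.AtPrime (RingHom.ker φ)) G.Rat
  exact h

instance : Algebra.EssFiniteType K G.Rat := (essFiniteType_and_trdeg G).1

/-- Coordinates at a rational point are a transcendence basis of the function field. -/
theorem isTranscendenceBasis_coordinates (P : G.Pt K) {t : Fin G.dim → G.Stalk (centre P)}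
    (ht : Local.IsCoordinateSystem K t) :
    IsTranscendenceBasis K (fun i => G.toRat (centre P) (t i)) := by
  have hind : AlgebraicIndependent K (fun i => G.toRat (centre P) (t i)) :=
    ht.algebraicIndependent.map' (G.toRat_injective (centre P))
  refine hind.isTranscendenceBasis_of_lift_trdeg_le_of_finite ?_
  rw [(essFiniteType_and_trdeg G).2]
  simp

end AV

end FermatAgent.AbVar
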