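import Fermat.Agent.AbVar.Basic

/-!
# Points over local rings and local rings of the abelian variety

A point with values in a local `K`-algebra is the same as a point `x` of the variety with a local
homomorphism from the local ring at `x`.
-/

set_option autoImplicit false

noncomputable section

universe u

open CategoryTheory CategoryTheory.Limits AlgebraicGeometry

namespace FermatAgent.AbVar

namespace AV

variable {K : Type u} [Field K] (G : AV K)

/-- The local ring at a point of the variety. -/
abbrev Stalk (x : G.carrier) : Type u := G.carrier.presheaf.stalk x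

/-- The structure map of a local ring. -/
def stalkStr (x : G.carrier) : K →+* G.Stalk x :=
  (Spec.preimage (G.carrier.fromSpecStalk x ≫ G.str)).hom

instance (x : G.carrier) : Algebra K (G.Stalk x) := (G.stalkStr x).toAlgebra

theorem base_stalk (x : G.carrier) :
    base K (G.Stalk x) = G.carrier.fromSpecStalk x ≫ G.str :=
  Spec.map_preimage _

/-- The tautological point over a local ring. -/
def stalkPt (x : G.carrier) : G.Pt (G.Stalk x) :=
  ⟨G.carrier.fromSpecStalk x, (G.base_stalk x).symm⟩

variable {G} {R S : Type u} [CommRing R] [IsLocalRing R] [Algebra K R] [CommRing S]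
  [IsLocalRing S] [Algebra K S]

/-- The centre of a point with values in a local ring. -/
def centre (P : G.Pt R) : G.carrier := P.1 (IsLocalRing.closedPoint R)

/-- The local homomorphism attached to a point with values in a local ring, as a ring map. -/
def stalkRingHom (P : G.Pt R) : G.Stalk (centre P) →+* R :=
  (Scheme.stalkClosedPointTo P.1).hom

theorem spec_stalkRingHom (P : G.Pt R) :
    Spec.map (CommRingCat.ofHom (stalkRingHom P)) ≫ G.carrier.fromSpecStalk (centre P) = P.1 :=
  Scheme.Spec_stalkClosedPointTo_fromSpecStalk P.1

/-- The local homomorphism attached to a point with values in a local ring. -/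
def stalkHom (P : G.Pt R) : G.Stalk (centre P) →ₐ[K] R where
  toRingHom := stalkRingHom P
  commutes' := by
    have h : (stalkRingHom P).comp (algebraMap K (G.Stalk (centre P))) = algebraMap K R := by
      have e : Spec.map (CommRingCat.ofHom
          ((stalkRingHom P).comp (algebraMap K (G.Stalk (centre P))))) = base K R := by
        rw [CommRingCat.ofHom_comp, Spec.map_comp]
        refine Eq.trans (congrArg (_ ≫ ·) (G.base_stalk _)) ?_
        rw [← Category.assoc, spec_stalkRingHom]
        exact P.2
      exact congrArg CommRingCat.Hom.hom (Spec.map_injective e)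
    exact RingHom.congr_fun h

instance isLocalHom_stalkHom (P : G.Pt R) : IsLocalHom (stalkHom P).toRingHom :=
  inferInstanceAs (IsLocalHom (Scheme.stalkClosedPointTo P.1).hom)

theorem map_stalkHom (P : G.Pt R) : map (stalkHom P) (G.stalkPt (centre P)) = P :=
  pt_ext (spec_stalkRingHom P)

theorem centre_stalkPt (x : G.carrier) : centre (G.stalkPt x) = x :=
  Scheme.fromSpecStalk_closedPoint

theorem centre_map_of_isLocalHom (h : R →ₐ[K] S) [IsLocalHom h.toRingHom] (P : G.Pt R) :
    centre (map h P) = centre P := by
  show (Spec.map (CommRingCat.ofHom h.toRingHom) ≫ P.1) _ = P.1 _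
  exact congrArg (fun y => P.1 y) (IsLocalRing.comap_closedPoint h.toRingHom)

theorem centre_map_specializes (h : R →ₐ[K] S) (P : G.Pt R) :
    centre (map h P) ⤳ centre P := by
  show (Spec.map (CommRingCat.ofHom h.toRingHom) ≫ P.1) _ ⤳ P.1 _
  exact (IsLocalRing.specializes_closedPoint _).map P.1.continuous

/-- The local homomorphism at the centre is determined by the point. -/
theorem stalk_hom_ext {x : G.carrier} {φ : G.Stalk x →ₐ[K] R} [IsLocalHom φ.toRingHom]
    {P : G.Pt R} (h : map φ (G.stalkPt x) = P) :
    ∃ e : centre P = x, ∀ z, φ z =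
      stalkHom P ((G.carrier.presheaf.stalkSpecializes (specializes_of_eq e)).hom z) := by
  have e : centre P = x := by rw [← h, centre_map_of_isLocalHom, centre_stalkPt]
  refine ⟨e, ?_⟩
  subst e
  have hφ : (SpecToEquivOfLocalRing G.carrier (CommRingCat.of R)).symm
      ⟨centre P, CommRingCat.ofHom φ.toRingHom, ‹_›⟩ = P.1 :=
    congrArg Subtype.val h
  have hs : (SpecToEquivOfLocalRing G.carrier (CommRingCat.of R)).symm
      ⟨centre P, CommRingCat.ofHom (stalkRingHom P), isLocalHom_stalkHom P⟩ = P.1 :=
    spec_stalkRingHom P
  have := (SpecToEquivOfLocalRing G.carrier (CommRingCat.of R)).symm.injective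
    (hφ.trans hs.symm)
  obtain ⟨_, e'⟩ := Sigma.mk.inj_iff.mp this
  intro z
  simp only [TopCat.Presheaf.stalkSpecializes_refl]
  exact RingHom.congr_fun (congrArg CommRingCat.Hom.hom (congrArg Subtype.val (eq_of_heq e'))) z

/-- Naturality of the local homomorphisms. -/
theorem stalkHom_map (h : R →ₐ[K] S) (P : G.Pt R) (z : G.Stalk (centre P)) :
    stalkHom (map h P)
        ((G.carrier.presheaf.stalkSpecializes (centre_map_specializes h P)).hom z) =
      h (stalkHom P z) := by
  have e : CommRingCat.ofHom ((stalkRingHom (map h P)).comp
      (G.carrier.presheaf.stalkSpecializes (centre_map_specializes h P)).hom) =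
      CommRingCat.ofHom (h.toRingHom.comp (stalkRingHom P)) := by
    refine Spec.map_injective ?_
    rw [← cancel_mono (G.carrier.fromSpecStalk (centre P))]
    rw [CommRingCat.ofHom_comp, CommRingCat.ofHom_comp, Spec.map_comp, Spec.map_comp]
    refine (Category.assoc _ _ _).trans (Eq.trans ?_ (Category.assoc _ _ _).symm)
    rw [spec_stalkRingHom P]
    refine Eq.trans ?_ (spec_stalkRingHom (map h P))
    exact congrArg _ (Scheme.SpecMap_stalkSpecializes_fromSpecStalk (centre_map_specializes h P))
  exact RingHom.congr_fun (congrArg CommRingCat.Hom.hom e) z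

end AV

end FermatAgent.AbVar
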