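import Fermat.Agent.AbVar.CountData
import Fermat.Agent.AbVar.Count.Main
import Fermat.Agent.AbVar.Bridge

/-!
# The number of torsion points of an abelian variety

For `n` invertible in the algebraically closed ground field there are `n ^ (2 * dim)` of them.
-/

set_option autoImplicit false

noncomputable section

universe u

open CategoryTheory AlgebraicGeometry NeronModelInfra GoodReductionJacobian

namespace FermatAgent.AbVar

namespace AV

variable {K : Type u} [Field K] [IsAlgClosed K]

/-- The count, given the theorem of the cube for degrees on curves. -/
theorem natCard_torsion_eq_of_degreeCube (G : AV K) (H : DegreeCube G) {n : ℕ}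
    (hn : (n : K) ≠ 0) :
    Nat.card {x : SchemeHomOver (𝟙 (Spec (CommRingCat.of K))) G.str //
        G.law.IsTorsionPoint (𝟙 (Spec (CommRingCat.of K))) n x} = n ^ (2 * G.dim) := by
  rw [natCard_isTorsionPoint]
  have hn0 : 0 < n := Nat.pos_of_ne_zero fun h => hn (by rw [h, Nat.cast_zero])
  exact card_torsion_eq (countSetting G) H hn0
    (fun k _ => countInput (by rw [Nat.cast_pow]; exact pow_ne_zero k hn))
    (fun k _ => G.natCard_torsion_pow hn k)

end AV

end FermatAgent.AbVar
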